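import Fermat.Agent.LT.Setup.Level
import Fermat.Agent.LT.Reduction.Classes
import Fermat.Agent.LT.HeckeOp
import Fermat.Agent.LT.Whittaker.Defs
import Mathlib.RingTheory.Ideal.Quotient.HasFiniteQuotients

/-!
# The cusp condition on a Hecke function, along a line `u ↦ r⁻¹ n(u) m`

`HasCuspCondition h` asks for a vanishing sum of unipotent translates at every conjugate. The
function `lineFn` on the line is periodic, has bounded denominators on its support, and has
mean zero on a fine enough grid (`exists_balanced`).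
-/

set_option autoImplicit false

noncomputable section

open Matrix
open scoped NumberField

namespace Fermat.Agent.LT.Kernel

universe u

variable {F : Type u} [Field F] [NumberField F] {U : Level F}

/-- Some finite sum of unipotent translates of `h` vanishes at every conjugate. -/
def HasCuspCondition (h : HeckeFn U) : Prop :=
  ∀ g : GLFin F, ∃ S : Finset (FinAdele F), S.Nonempty ∧
    ∀ c : GLFin F, ∑ s ∈ S, h.toFun (g⁻¹ * unip s * c) = 0

/-- `u ↦ h (r⁻¹ n(u) m)`. -/
def lineFn (h : HeckeFn U) (r m : GLFin F) (u : FinAdele F) : ℂ :=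
  h.toFun (r⁻¹ * unip u * m)

/-- The matrix of `n(u)`. -/
theorem unip_val {R : Type*} [CommRing R] (u : R) :
    (unip u : GL (Fin 2) R).val = !![1, u; 0, 1] := rfl

theorem unip_inv_val {R : Type*} [CommRing R] (u : R) :
    ((unip u : GL (Fin 2) R)⁻¹).val = !![1, -u; 0, 1] := rfl

/-- `u ↦ n(u)` turns sums into products. -/
theorem unip_add {R : Type*} [CommRing R] (u v : R) :
    (unip (u + v) : GL (Fin 2) R) = unip u * unip v :=
  AddChar.map_add_eq_mul _ u v

omit [NumberField F] in
/-- The finite adelic image of `n(β)`. -/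
theorem glIncl_unip (β : F) : glIncl F (unip β) = unip (finIncl F β) := by
  ext i j
  show finIncl F ((unip β : GL (Fin 2) F).val i j) = _
  fin_cases i <;> fin_cases j <;> simp

omit [NumberField F] in
/-- Multiplication by an adelic scalar scales the entries. -/
theorem scalarFin_mul_val (a : (FinAdele F)ˣ) (g : GLFin F) (i j : Fin 2) :
    (scalarFin F a * g).val i j = (a : FinAdele F) * g.val i j := by
  fin_cases i <;> simp [scalarFin, Matrix.mul_apply, Fin.sum_univ_two]

omit [NumberField F] in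
/-- The entries of a conjugate of `n(u)`. -/
theorem conj_unip_val (r : GLFin F) (u : FinAdele F) (i j : Fin 2) :
    (r⁻¹ * unip u * r).val i j =
      (1 : Matrix (Fin 2) (Fin 2) (FinAdele F)) i j + u * ((r⁻¹).val i 0 * r.val 1 j) := by
  have h1 : ((r⁻¹).val * r.val) i j = (1 : Matrix (Fin 2) (Fin 2) (FinAdele F)) i j := by
    rw [← Units.val_mul, inv_mul_cancel, Units.val_one]
  rw [← h1]
  simp [Units.val_mul, Matrix.mul_apply, Fin.sum_univ_two]
  ring

/-- Invariance under a lattice of translations. -/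
theorem exists_period (h : HeckeFn U) (r m : GLFin F) :
    ∃ N : ℕ, 0 < N ∧ ∀ u z : FinAdele F, z ∈ integralAdele F →
      lineFn h r m (u + (N : FinAdele F) * z) = lineFn h r m u := by
  obtain ⟨N, hN, hU⟩ := U.exists_principal
  obtain ⟨M, hM, hMi⟩ := Reduction.exists_denominator (fun p : Bool × Fin 2 × Fin 2 =>
    if p.1 then r.val p.2.1 p.2.2 else (r⁻¹).val p.2.1 p.2.2)
  refine ⟨M * M * N, by positivity, fun u z hz => ?_⟩
  rw [lineFn, lineFn, add_comm, unip_add,
    show r⁻¹ * (unip (((M * M * N : ℕ) : FinAdele F) * z) * unip u) * m =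
      (r⁻¹ * unip (((M * M * N : ℕ) : FinAdele F) * z) * r) * (r⁻¹ * unip u * m) by group]
  refine h.left_inv' _ _ (hU _ fun i j => ?_)
  set e := z * (((M : FinAdele F) * (r⁻¹).val i 0) * ((M : FinAdele F) * r.val 1 j))
  have he : e ∈ integralAdele F :=
    mul_mem hz (mul_mem (by simpa using hMi (false, i, 0)) (by simpa using hMi (true, 1, j)))
  refine ⟨e, he, -e, neg_mem he, ?_, ?_⟩
  · rw [conj_unip_val]; simp only [e]; push_cast; ring
  · rw [show (r⁻¹ * unip (((M * M * N : ℕ) : FinAdele F) * z) * r)⁻¹ =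
        r⁻¹ * unip (-(((M * M * N : ℕ) : FinAdele F) * z)) * r by
      rw [_root_.mul_inv_rev, _root_.mul_inv_rev, inv_inv, ← AddChar.map_neg_eq_inv, ← mul_assoc],
      conj_unip_val]
    simp only [e]; push_cast; ring

/-- The support of `lineFn` has bounded denominators. -/
theorem exists_den_support (h : HeckeFn U) (r m : GLFin F) :
    ∃ L : ℕ, 0 < L ∧ ∀ u : FinAdele F, lineFn h r m u ≠ 0 →
      (L : FinAdele F) * u ∈ integralAdele F := by
  classical
  have := h.finite_support.to_subtype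
  obtain ⟨M, hM, hMi⟩ := Reduction.exists_denominator
    (fun p : (↥(QuotientGroup.mk '' {g | h.toFun g ≠ 0} : Set (GLFin F ⧸ U.toSubgroup))) ×
        Fin 4 × Fin 2 × Fin 2 =>
      (![r * p.1.1.out, m⁻¹, m, (p.1.1.out)⁻¹ * r⁻¹] p.2.1).val p.2.2.1 p.2.2.2)
  refine ⟨M * M * (M * M), by positivity, fun u hu => ?_⟩
  set g := r⁻¹ * unip u * m with hg
  set s : GLFin F ⧸ U.toSubgroup := QuotientGroup.mk g
  have hs : s ∈ QuotientGroup.mk '' {g | h.toFun g ≠ 0} := ⟨g, hu, rfl⟩
  obtain ⟨a, k, hk, hak⟩ := U.le_maximal _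
    (QuotientGroup.eq.mp (QuotientGroup.out_eq' s))
  have hk' := Reduction.intGL_of_isPrincipal hk
  have hprod : ∀ (x y : Fin 4) (q : GLFin F), Reduction.IntGL q → ∀ i j,
      ((M * M : ℕ) : FinAdele F) * (![r * s.out, m⁻¹, m, s.out⁻¹ * r⁻¹] x * q *
        ![r * s.out, m⁻¹, m, s.out⁻¹ * r⁻¹] y).val i j ∈ integralAdele F := by
    intro x y q hq i j
    rw [Units.val_mul, Units.val_mul, Matrix.mul_apply, Finset.mul_sum]
    refine sum_mem fun l _ => ?_
    rw [Matrix.mul_apply, Finset.sum_mul, Finset.mul_sum]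
    refine sum_mem fun l' _ => ?_
    rw [show ((M * M : ℕ) : FinAdele F) * ((![r * s.out, m⁻¹, m, s.out⁻¹ * r⁻¹] x).val i l' *
        q.val l' l * (![r * s.out, m⁻¹, m, s.out⁻¹ * r⁻¹] y).val l j) =
      ((M : FinAdele F) * (![r * s.out, m⁻¹, m, s.out⁻¹ * r⁻¹] x).val i l') * q.val l' l *
        ((M : FinAdele F) * (![r * s.out, m⁻¹, m, s.out⁻¹ * r⁻¹] y).val l j) by push_cast; ring]
    exact mul_mem (mul_mem (hMi (⟨s, hs⟩, x, i, l')) (hq.1 l' l)) (hMi (⟨s, hs⟩, y, l, j))
  set E := r * s.out * k * m⁻¹ with hE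
  have hun : unip u = scalarFin F a * E := by
    have h1 : g = s.out * (scalarFin F a * k) := by rw [← hak]; group
    calc unip u = r * g * m⁻¹ := by rw [hg]; group
      _ = r * s.out * scalarFin F a * k * m⁻¹ := by rw [h1]; group
      _ = scalarFin F a * E := by rw [← scalarFin_comm a (r * s.out), hE]; simp only [mul_assoc]
  have hE1 : ((M * M : ℕ) : FinAdele F) * E.val 0 1 ∈ integralAdele F := by
    simpa [hE] using hprod 0 1 k hk' 0 1
  have hE2 : ((M * M : ℕ) : FinAdele F) * (E⁻¹).val 0 0 ∈ integralAdele F := by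
    have e : E⁻¹ = m * k⁻¹ * (s.out⁻¹ * r⁻¹) := by rw [hE]; group
    rw [e]
    simpa using hprod 2 3 k⁻¹ hk'.inv 0 0
  have h01 : u = (a : FinAdele F) * E.val 0 1 := by
    rw [← scalarFin_mul_val, ← hun, unip_val]; rfl
  have h00 : (1 : FinAdele F) = (↑a⁻¹ : FinAdele F) * (E⁻¹).val 0 0 := by
    rw [← scalarFin_mul_val, scalarFin_comm, map_inv, ← _root_.mul_inv_rev, ← hun, unip_inv_val]
    rfl
  have ha : (a : FinAdele F) = (E⁻¹).val 0 0 := by
    conv_lhs => rw [← mul_one (a : FinAdele F), h00, ← mul_assoc, ← Units.val_mul, mul_inv_cancel,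
      Units.val_one, one_mul]
  rw [h01, ha, Nat.cast_mul (M * M) (M * M), show ((M * M : ℕ) : FinAdele F) *
      ((M * M : ℕ) : FinAdele F) * ((E⁻¹).val 0 0 * E.val 0 1) =
    (((M * M : ℕ) : FinAdele F) * (E⁻¹).val 0 0) * (((M * M : ℕ) : FinAdele F) * E.val 0 1) by ring]
  exact mul_mem hE2 hE1

/-- Finitely many representatives `j q` carrying a function of total zero that describes
`lineFn` on the whole support. -/
theorem exists_balanced (h : HeckeFn U) (hc : HasCuspCondition h) (r m : GLFin F) :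
    ∃ (L N : ℕ) (κ : Type u) (_ : Fintype κ) (j : κ → 𝓞 F) (Φ : κ → ℂ), 0 < L ∧ 0 < N ∧
      ∑ q, Φ q = 0 ∧
      Function.Bijective (fun p : κ × 𝓞 F => j p.1 + ((L * N : ℕ) : 𝓞 F) * p.2) ∧
      (∀ q d, lineFn h r m (finIncl F (((j q + ((L * N : ℕ) : 𝓞 F) * d : 𝓞 F) : F) / (L : F))) =
        Φ q) ∧
      ∀ β : F, lineFn h r m (finIncl F β) ≠ 0 → ∃ o : 𝓞 F, β = (o : F) / (L : F) := by
  classical
  obtain ⟨N, hN, hper⟩ := exists_period h r m
  obtain ⟨L₁, hL₁, hsupp⟩ := exists_den_support h r m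
  obtain ⟨S, hS, hsum⟩ := hc r
  obtain ⟨L₂, hL₂, hSden⟩ := Reduction.exists_denominator (fun s : S => (s : FinAdele F))
  set L := L₁ * L₂ with hL
  have hL0 : 0 < L := Nat.mul_pos hL₁ hL₂
  have hLF : (L : F) ≠ 0 := Nat.cast_ne_zero.mpr hL0.ne'
  set I : Ideal (𝓞 F) := Ideal.span {((L * N : ℕ) : 𝓞 F)} with hI
  have hK : ((L * N : ℕ) : 𝓞 F) ≠ 0 := Nat.cast_ne_zero.mpr (Nat.mul_pos hL0 hN).ne'
  have hfin : Finite (𝓞 F ⧸ I) :=
    Ring.HasFiniteQuotients.finiteQuotient fun hb => hK (Ideal.span_singleton_eq_bot.mp hb)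
  have := Fintype.ofFinite (𝓞 F ⧸ I)
  set rep : 𝓞 F ⧸ I → 𝓞 F := Function.surjInv Ideal.Quotient.mk_surjective with hrepdef
  have hrep : ∀ q, Ideal.Quotient.mk I (rep q) = q :=
    Function.surjInv_eq Ideal.Quotient.mk_surjective
  set Φ : 𝓞 F ⧸ I → ℂ := fun q => lineFn h r m (finIncl F ((rep q : F) / (L : F)))
    with hΦ
  have hcls : ∀ o : 𝓞 F, lineFn h r m (finIncl F ((o : F) / (L : F))) =
      Φ (Ideal.Quotient.mk I o) := by
    intro o
    set o' : 𝓞 F := rep (Ideal.Quotient.mk I o) with ho'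
    have h1 : Ideal.Quotient.mk I o' = Ideal.Quotient.mk I o := hrep _
    obtain ⟨d, hd⟩ := Ideal.mem_span_singleton'.mp (Ideal.Quotient.eq.mp h1)
    have hd' : (o' : F) - (o : F) = (d : F) * ((L : F) * (N : F)) := by
      have := congrArg (algebraMap (𝓞 F) F) hd
      simpa using this.symm
    have h2 : finIncl F ((o' : F) / L) = finIncl F ((o : F) / L) +
        (N : FinAdele F) * finIncl F (d : F) := by
      rw [← map_natCast (finIncl F), ← map_mul, ← map_add]
      congr 1
      field_simp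
      linear_combination hd'
    have h3 := hper (finIncl F ((o : F) / L)) _ (Reduction.finIncl_mem_of_isIntegral d)
    rw [hΦ]
    simp only [← ho', h2, h3]
  refine ⟨L, N, 𝓞 F ⧸ I, this, rep, Φ, hL0, hN, ?_, ?_, ?_, ?_⟩
  · have hs : ∀ s ∈ S, ∃ o : 𝓞 F, ∀ q, lineFn h r m (s + finIncl F ((rep q : F) / L)) =
        Φ (Ideal.Quotient.mk I o + q) := by
      intro s hs
      have hLs : (L : FinAdele F) * s ∈ integralAdele F := by
        rw [hL, Nat.cast_mul, mul_assoc]
        exact mul_mem (natCast_mem _ _) (hSden ⟨s, hs⟩)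
      obtain ⟨o, y, hy, hoy⟩ := Reduction.exists_integer_add (L * N) (Nat.mul_pos hL0 hN) hLs
      refine ⟨o, fun q => ?_⟩
      have hu : IsUnit (L : FinAdele F) := by
        rw [← map_natCast (finIncl F)]
        exact (isUnit_iff_ne_zero.mpr hLF).map _
      have h2 : s + finIncl F ((rep q : F) / L) =
          finIncl F (((o + rep q : 𝓞 F) : F) / L) + (N : FinAdele F) * y := by
        refine hu.mul_left_cancel ?_
        have e : ∀ x : F, (L : FinAdele F) * finIncl F (x / L) = finIncl F x := fun x => by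
          rw [← map_natCast (finIncl F), ← map_mul, mul_div_cancel₀ _ hLF]
        rw [mul_add, mul_add, e, e, hoy]
        push_cast [map_add]
        ring
      rw [h2, hper _ _ hy, hcls, map_add]
      congr 2
      exact hrep q
    choose o ho using hs
    have h1 : ∀ s : S, ∑ q, Φ (Ideal.Quotient.mk I (o s.1 s.2) + q) = ∑ q, Φ q := fun s =>
      Equiv.sum_comp (Equiv.addLeft (Ideal.Quotient.mk I (o s.1 s.2))) Φ
    have h2 : ∑ s : S, ∑ q, Φ (Ideal.Quotient.mk I (o s.1 s.2) + q) = 0 := by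
      rw [Finset.sum_comm]
      refine Finset.sum_eq_zero fun q _ => ?_
      simp only [← ho]
      rw [Finset.sum_coe_sort S fun s => lineFn h r m (s + finIncl F ((rep q : F) / L))]
      have := hsum (unip (finIncl F ((rep q : F) / L)) * m)
      refine (Finset.sum_congr rfl fun s _ => ?_).trans this
      rw [lineFn, unip_add]
      simp only [mul_assoc]
    simp only [h1, Finset.sum_const, Finset.card_univ, Fintype.card_coe, smul_eq_zero] at h2
    exact h2.resolve_left hS.card_ne_zero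
  · constructor
    · rintro ⟨q, d⟩ ⟨q', d'⟩ hqq
      simp only at hqq
      have hq : q = q' := by
        have := congrArg (Ideal.Quotient.mk I) hqq
        have hz : ∀ x : 𝓞 F, Ideal.Quotient.mk I (((L * N : ℕ) : 𝓞 F) * x) = 0 := fun x =>
          Ideal.Quotient.eq_zero_iff_mem.mpr (Ideal.mul_mem_right x I
            (Ideal.mem_span_singleton_self _))
        rwa [map_add, map_add, hz, hz, hrep, hrep, add_zero, add_zero] at this
      subst hq
      rw [mul_left_cancel₀ hK (add_left_cancel hqq)]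
    · intro o
      have h1 : Ideal.Quotient.mk I o = Ideal.Quotient.mk I (rep (Ideal.Quotient.mk I o)) :=
        (hrep _).symm
      obtain ⟨d, hd⟩ := Ideal.mem_span_singleton'.mp (Ideal.Quotient.eq.mp h1)
      exact ⟨(_, d), by simp only; rw [mul_comm, hd]; ring⟩
  · intro q d
    rw [hcls]
    congr 1
    rw [map_add, Ideal.Quotient.eq_zero_iff_mem.mpr (Ideal.mul_mem_right d I
      (Ideal.mem_span_singleton_self _)), add_zero]
    exact hrep q
  · intro β hβ
    have h1 : finIncl F ((L : F) * β) ∈ integralAdele F := by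
      rw [map_mul, map_natCast, hL, Nat.cast_mul, mul_comm (L₁ : FinAdele F), mul_assoc]
      exact mul_mem (natCast_mem _ _) (hsupp _ hβ)
    obtain ⟨o, ho⟩ := Reduction.exists_integer_of_finIncl_mem h1
    exact ⟨o, by rw [ho, mul_div_cancel_left₀ _ hLF]⟩

end Fermat.Agent.LT.Kernel
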