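import Fermat.Agent.LT.Setup.Level
import Fermat.Agent.LT.Reduction.Classes
import Fermat.Agent.LT.H3.Coord
import Mathlib.NumberTheory.NumberField.InfinitePlace.Embeddings
import Mathlib.NumberTheory.NumberField.InfinitePlace.Basic

/-!
# The adjoint coordinates `γ_ij γ_kl / det γ` of an element of `PGL₂(F)`

They determine the element, have bounded denominators when the element moves one finite coset to
another, and are bounded at the infinite places by the distance.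
-/

set_option autoImplicit false

noncomputable section

open Matrix
open scoped NumberField ComplexConjugate
open NumberField (InfinitePlace)

namespace Fermat.Agent.LT.Kernel

variable {F : Type*} [Field F] [NumberField F]

/-- Pairs of entries. -/
abbrev EntryPair : Type := (Fin 2 × Fin 2) × (Fin 2 × Fin 2)

/-- `γ_ij γ_kl / det γ`. -/
def adjEntry (γ : GL (Fin 2) F) (p : EntryPair) : F :=
  γ.val p.1.1 p.1.2 * γ.val p.2.1 p.2.2 / γ.val.det

omit [NumberField F] in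
/-- Multiplication by a scalar matrix scales the entries. -/
theorem scalarGlobal_mul_val (α : Fˣ) (γ : GL (Fin 2) F) :
    (scalarGlobal F α * γ).val = (α : F) • γ.val := by
  rw [Units.val_mul, scalarGlobal_val, Matrix.smul_mul, Matrix.one_mul]

omit [NumberField F] in
/-- An invertible matrix has nonzero determinant. -/
theorem det_val_ne_zero (γ : GL (Fin 2) F) : γ.val.det ≠ 0 :=
  ((Matrix.isUnit_iff_isUnit_det _).mp γ.isUnit).ne_zero

omit [NumberField F] in
theorem adjEntry_scalar_mul (α : Fˣ) (γ : GL (Fin 2) F) :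
    adjEntry (scalarGlobal F α * γ) = adjEntry γ := by
  funext p
  have hd := det_val_ne_zero γ
  simp only [adjEntry, scalarGlobal_mul_val, Matrix.smul_apply, smul_eq_mul, Matrix.det_smul,
    Fintype.card_fin]
  field_simp

/-- The adjoint coordinates of an element of `PGL₂(F)`. -/
def adjVec (c : PGLIndex F) : EntryPair → F :=
  Quotient.liftOn' c adjEntry fun γ δ h => by
    obtain ⟨a, ha⟩ := QuotientGroup.leftRel_apply.mp h
    have : δ = scalarGlobal F a * γ := by rw [scalarGlobal_comm, ha, mul_inv_cancel_left]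
    rw [this, adjEntry_scalar_mul]

omit [NumberField F] in
/-- `adjVec` of a class. -/
theorem adjVec_mk (γ : GL (Fin 2) F) : adjVec (QuotientGroup.mk γ : PGLIndex F) = adjEntry γ := rfl

omit [NumberField F] in
theorem adjVec_injective : Function.Injective (adjVec (F := F)) := by
  intro c d h
  induction c using QuotientGroup.induction_on with | H γ => ?_
  induction d using QuotientGroup.induction_on with | H δ => ?_
  rw [adjVec_mk, adjVec_mk] at h
  have hγ := det_val_ne_zero γ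
  have hδ := det_val_ne_zero δ
  obtain ⟨p, hp⟩ : ∃ p : Fin 2 × Fin 2, γ.val p.1 p.2 ≠ 0 := by
    by_contra hcon
    push Not at hcon
    exact hγ (by rw [Matrix.det_fin_two, hcon (0, 0), hcon (0, 1)]; ring)
  have hpp := congrFun h (p, p)
  simp only [adjEntry] at hpp
  have hq : δ.val p.1 p.2 ≠ 0 := by
    intro h0
    rw [h0, zero_mul, zero_div, div_eq_zero_iff] at hpp
    exact hpp.elim (mul_ne_zero hp hp) hγ
  refine QuotientGroup.eq.mpr ⟨Units.mk0 (δ.val p.1 p.2 / γ.val p.1 p.2) (div_ne_zero hq hp), ?_⟩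
  rw [eq_inv_mul_iff_mul_eq, ← scalarGlobal_comm]
  ext i j
  rw [scalarGlobal_mul_val, Matrix.smul_apply, smul_eq_mul, Units.val_mk0]
  have hij := congrFun h (p, (i, j))
  simp only [adjEntry] at hij
  field_simp at hpp hij ⊢
  refine mul_left_cancel₀ (mul_ne_zero hp hδ) ?_
  refine mul_left_cancel₀ hq ?_
  linear_combination (δ.val p.1 p.2) * (δ.val p.1 p.2) * hij - (δ.val p.1 p.2) * (δ.val i j) * hpp

/-- `M x` is integral. -/
def BoundedDen (M : ℕ) (x : F) : Prop := ∃ o : 𝓞 F, (o : F) = (M : F) * x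

/-- Elements moving one finite coset to another have adjoint coordinates with bounded
denominators. -/
theorem exists_adjVec_den (U : Level F) (r r' : GLFin F) :
    ∃ M : ℕ, 0 < M ∧ ∀ γ : GL (Fin 2) F,
      (QuotientGroup.mk (glIncl F γ * r) : GLFin F ⧸ U.toSubgroup) = QuotientGroup.mk r' →
        ∀ p, BoundedDen M (adjEntry γ p) := by
  obtain ⟨M, hM, h⟩ := Reduction.exists_normalise U r r'
  refine ⟨M ^ 4, by positivity, fun γ hγ p => ?_⟩
  obtain ⟨α, hA, hB⟩ := h γ hγ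
  rw [← congrFun (adjEntry_scalar_mul α γ) p]
  generalize scalarGlobal F α * γ = δ at hA hB
  choose a ha using hA
  choose b hb using hB
  refine ⟨a p.1.1 p.1.2 * a p.2.1 p.2.2 * (b 0 0 * b 1 1 - b 0 1 * b 1 0), ?_⟩
  have hdet : (δ⁻¹).val.det = (δ.val.det)⁻¹ := by
    rw [← one_mul (δ.val.det)⁻¹, eq_mul_inv_iff_mul_eq₀ (det_val_ne_zero δ), ← Matrix.det_mul,
      ← Units.val_mul, inv_mul_cancel, Units.val_one, Matrix.det_one]
  rw [adjEntry, div_eq_mul_inv, ← hdet, Matrix.det_fin_two]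
  simp only [map_mul, map_sub, ha, hb]
  push_cast
  ring

variable (F) in
/-- Elements with bounded denominators and bounded archimedean values are finite in number. -/
theorem finite_boundedDen {M : ℕ} (hM : 0 < M) (B : ℝ) :
    {x : F | BoundedDen M x ∧ ∀ w : InfinitePlace F, w x ≤ B}.Finite := by
  refine Set.Finite.of_finite_image (f := fun x : F => (M : F) * x)
    ((NumberField.Embeddings.finite_of_norm_le F ℂ (M * B)).subset ?_) fun x _ y _ hxy => ?_
  · rintro _ ⟨x, ⟨⟨o, ho⟩, hx⟩, rfl⟩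
    refine ⟨by simpa only [← ho] using o.isIntegral_coe, fun φ => ?_⟩
    rw [map_mul, map_natCast, norm_mul, Complex.norm_natCast]
    exact mul_le_mul_of_nonneg_left ((InfinitePlace.le_iff_le x B).mp hx φ) (Nat.cast_nonneg M)
  · exact mul_left_cancel₀ (Nat.cast_ne_zero.mpr hM.ne') hxy

/-- Nonzero ones are bounded below. -/
theorem exists_lower_bound {M : ℕ} (hM : 0 < M) (B : ℝ) :
    ∃ δ : ℝ, 0 < δ ∧ ∀ x : F, x ≠ 0 → BoundedDen M x → (∀ w : InfinitePlace F, w x ≤ B) →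
      ∀ w : InfinitePlace F, δ ≤ w x := by
  classical
  set S : Finset (InfinitePlace F × F) :=
    Finset.univ ×ˢ ((finite_boundedDen F hM B).toFinset.erase 0) with hS
  have hne : ∀ q ∈ S, 0 < q.1 q.2 := fun q hq => by
    rw [hS, Finset.mem_product, Finset.mem_erase] at hq
    exact InfinitePlace.pos_iff.mpr hq.2.1
  rcases S.eq_empty_or_nonempty with h | h
  · refine ⟨1, one_pos, fun x hx hd hb w => ?_⟩
    have : (w, x) ∈ S := Finset.mem_product.mpr ⟨Finset.mem_univ w,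
      Finset.mem_erase.mpr ⟨hx, (Set.Finite.mem_toFinset _).mpr ⟨hd, hb⟩⟩⟩
    simp [h] at this
  obtain ⟨q, hq, hmin⟩ := S.exists_min_image (fun q => q.1 q.2) h
  refine ⟨q.1 q.2, hne q hq, fun x hx hd hb w => hmin (w, x) (Finset.mem_product.mpr
    ⟨Finset.mem_univ w, Finset.mem_erase.mpr ⟨hx, (Set.Finite.mem_toFinset _).mpr ⟨hd, hb⟩⟩⟩)⟩

/-- `cdist` from the origin to its image is the normalised squared norm of the matrix. -/
theorem cdist_origin_smul (g : GL (Fin 2) ℂ) :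
    H3.cdist H3.origin (g • H3.origin) =
      (‖g.val 0 0‖ ^ 2 + ‖g.val 0 1‖ ^ 2 + ‖g.val 1 0‖ ^ 2 + ‖g.val 1 1‖ ^ 2) /
        (2 * ‖g.val.det‖) := by
  have h : H3.origin.mat = 1 := rfl
  have hd := (H3.norm_det_pos g).ne'
  rw [H3.cdist, H3.smul_mat, h, inv_one, Matrix.mul_one, Matrix.one_mul, Matrix.trace_smul,
    Matrix.trace_fin_two]
  simp only [Matrix.mul_apply, Fin.sum_univ_two, Matrix.conjTranspose_apply, Complex.star_def,
    Complex.mul_conj', smul_eq_mul, ← Complex.ofReal_pow, ← Complex.ofReal_add,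
    ← Complex.ofReal_mul, Complex.ofReal_re]
  field_simp
  ring

/-- Products of two entries are bounded by the distance moved. -/
theorem norm_entry_mul_le {g : GL (Fin 2) ℂ} {R : ℝ}
    (h : H3.cdist H3.origin (g • H3.origin) ≤ R) (p : EntryPair) :
    ‖g.val p.1.1 p.1.2‖ * ‖g.val p.2.1 p.2.2‖ ≤ 2 * R * ‖g.val.det‖ := by
  have hd := H3.norm_det_pos g
  rw [cdist_origin_smul, div_le_iff₀ (by positivity)] at h
  have key : ∀ i j, ‖g.val i j‖ ^ 2 ≤
      ‖g.val 0 0‖ ^ 2 + ‖g.val 0 1‖ ^ 2 + ‖g.val 1 0‖ ^ 2 + ‖g.val 1 1‖ ^ 2 := by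
    intro i j
    have h1 := sq_nonneg ‖g.val 0 0‖
    have h2 := sq_nonneg ‖g.val 0 1‖
    have h3 := sq_nonneg ‖g.val 1 0‖
    have h4 := sq_nonneg ‖g.val 1 1‖
    fin_cases i <;> fin_cases j <;>
      simp only [Fin.zero_eta, Fin.mk_one] <;> linarith
  nlinarith [key p.1.1 p.1.2, key p.2.1 p.2.2,
    sq_nonneg (‖g.val p.1.1 p.1.2‖ - ‖g.val p.2.1 p.2.2‖)]

/-- All entries of a matrix and of its inverse are bounded by `H`. -/
def SizeLE (H : ℝ) (g : GL (Fin 2) ℂ) : Prop :=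
  ∀ i j, ‖g.val i j‖ ≤ H ∧ ‖(g⁻¹).val i j‖ ≤ H

/-- A size bound is nonnegative. -/
theorem SizeLE.nonneg {H : ℝ} {g : GL (Fin 2) ℂ} (h : SizeLE H g) : 0 ≤ H :=
  (norm_nonneg _).trans (h 0 0).1

theorem norm_det_le {H : ℝ} {A : Matrix (Fin 2) (Fin 2) ℂ} (h : ∀ i j, ‖A i j‖ ≤ H) :
    ‖A.det‖ ≤ 2 * H ^ 2 := by
  have h0 : 0 ≤ H := (norm_nonneg _).trans (h 0 0)
  rw [Matrix.det_fin_two]
  refine (norm_sub_le _ _).trans ?_
  rw [norm_mul, norm_mul, two_mul, sq]
  exact add_le_add (mul_le_mul (h 0 0) (h 1 1) (norm_nonneg _) h0)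
    (mul_le_mul (h 0 1) (h 1 0) (norm_nonneg _) h0)

theorem norm_mul3_le {H : ℝ} {A G B : Matrix (Fin 2) (Fin 2) ℂ}
    (hA : ∀ i j, ‖A i j‖ ≤ H) (hB : ∀ i j, ‖B i j‖ ≤ H) (i j : Fin 2) :
    ‖(A * G * B) i j‖ ≤ H ^ 2 * (‖G 0 0‖ + ‖G 0 1‖ + ‖G 1 0‖ + ‖G 1 1‖) := by
  have h0 : 0 ≤ H := (norm_nonneg _).trans (hA 0 0)
  have h3 : ∀ a b c d : Fin 2, ‖A i a * G b c * B d j‖ ≤ H ^ 2 * ‖G b c‖ := fun a b c d => by
    rw [norm_mul, norm_mul, sq, mul_right_comm H H]
    exact mul_le_mul (mul_le_mul_of_nonneg_right (hA i a) (norm_nonneg _)) (hB d j)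
      (norm_nonneg _) (mul_nonneg h0 (norm_nonneg _))
  simp only [Matrix.mul_apply, Fin.sum_univ_two, add_mul]
  have e1 := h3 0 0 0 0
  have e2 := h3 1 1 0 0
  have e3 := h3 0 0 1 1
  have e4 := h3 1 1 1 1
  calc ‖A i 0 * G 0 0 * B 0 j + A i 1 * G 1 0 * B 0 j +
        (A i 0 * G 0 1 * B 1 j + A i 1 * G 1 1 * B 1 j)‖
      ≤ ‖A i 0 * G 0 0 * B 0 j‖ + ‖A i 1 * G 1 0 * B 0 j‖ +
          (‖A i 0 * G 0 1 * B 1 j‖ + ‖A i 1 * G 1 1 * B 1 j‖) :=
        (norm_add_le _ _).trans (add_le_add (norm_add_le _ _) (norm_add_le _ _))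
    _ ≤ _ := by linarith

/-- The bound on the adjoint coordinates of `g` when `g` moves `g₂ • origin` to within `R` of
`g₁ • origin`. -/
theorem norm_adj_le {H R : ℝ} {g g₁ g₂ : GL (Fin 2) ℂ} (h₁ : SizeLE H g₁) (h₂ : SizeLE H g₂)
    (h : H3.cdist (g₁ • H3.origin) (g • g₂ • H3.origin) ≤ R) (p : EntryPair) :
    ‖g.val p.1.1 p.1.2‖ * ‖g.val p.2.1 p.2.2‖ ≤ 128 * H ^ 8 * R * ‖g.val.det‖ := by
  set G := g₁⁻¹ * g * g₂ with hG
  have hG' : H3.cdist H3.origin (G • H3.origin) ≤ R := by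
    rw [hG, mul_smul, mul_smul, ← H3.cdist_smul g₁, smul_inv_smul]
    exact h
  have hR : 0 ≤ R := zero_le_one.trans ((H3.one_le_cdist _ _).trans hG')
  have hg : g = g₁ * G * g₂⁻¹ := by rw [hG]; group
  have key : ∀ i j,
      ‖g.val i j‖ ≤ H ^ 2 * (‖G.val 0 0‖ + ‖G.val 0 1‖ + ‖G.val 1 0‖ + ‖G.val 1 1‖) := by
    intro i j
    rw [hg, Units.val_mul, Units.val_mul]
    exact norm_mul3_le (fun i j => (h₁ i j).1) (fun i j => (h₂ i j).2) i j
  set T := ‖G.val 0 0‖ + ‖G.val 0 1‖ + ‖G.val 1 0‖ + ‖G.val 1 1‖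
  have hT : T * T ≤ 32 * R * ‖G.val.det‖ := by
    have e := fun a b c d => norm_entry_mul_le hG' ((a, b), (c, d))
    simp only at e
    simp only [T]
    linarith [e 0 0 0 0, e 0 0 0 1, e 0 0 1 0, e 0 0 1 1, e 0 1 0 0, e 0 1 0 1, e 0 1 1 0,
      e 0 1 1 1, e 1 0 0 0, e 1 0 0 1, e 1 0 1 0, e 1 0 1 1, e 1 1 0 0, e 1 1 0 1, e 1 1 1 0,
      e 1 1 1 1]
  have hdet : ‖G.val.det‖ ≤ 2 * H ^ 2 * ‖g.val.det‖ * (2 * H ^ 2) := by
    rw [hG, Units.val_mul, Units.val_mul, Matrix.det_mul, Matrix.det_mul, norm_mul, norm_mul]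
    exact mul_le_mul (mul_le_mul_of_nonneg_right (norm_det_le fun i j =>
        (h₁ i j).2) (norm_nonneg _))
      (norm_det_le fun i j => (h₂ i j).1) (norm_nonneg _) (by positivity)
  have hH := h₁.nonneg
  calc ‖g.val p.1.1 p.1.2‖ * ‖g.val p.2.1 p.2.2‖ ≤ (H ^ 2 * T) * (H ^ 2 * T) :=
        mul_le_mul (key _ _) (key _ _) (norm_nonneg _) (by positivity)
    _ = H ^ 4 * (T * T) := by ring
    _ ≤ H ^ 4 * (32 * R * (2 * H ^ 2 * ‖g.val.det‖ * (2 * H ^ 2))) :=
        mul_le_mul_of_nonneg_left (hT.trans (mul_le_mul_of_nonneg_left hdet (by positivity)))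
          (by positivity)
    _ = _ := by ring

omit [NumberField F] in
/-- The absolute values of `adjEntry` in terms of the embedded matrix. -/
theorem glEmb_adjEntry (γ : GL (Fin 2) F) (w : InfinitePlace F) (p : EntryPair) :
    w (adjEntry γ p) = ‖(glEmb F w γ).val p.1.1 p.1.2‖ * ‖(glEmb F w γ).val p.2.1 p.2.2‖ /
      ‖(glEmb F w γ).val.det‖ := by
  rw [← InfinitePlace.norm_embedding_eq, adjEntry, map_div₀, map_mul, norm_div, norm_mul,
    RingHom.map_det]
  rfl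

/-- The finitely many elements moving a point of bounded size near another one, with prescribed
finite cosets. -/
theorem exists_finite_indices (U : Level F) (r r' : GLFin F) (H R : ℝ) :
    ∃ Γ : Set (PGLIndex F), Γ.Finite ∧ ∀ (γ : GL (Fin 2) F)
      (g₁ g₂ : InfinitePlace F → GL (Fin 2) ℂ), (∀ w, SizeLE H (g₁ w)) → (∀ w, SizeLE H (g₂ w)) →
      (∀ w, H3.cdist (g₁ w • H3.origin) (glEmb F w γ • g₂ w • H3.origin) ≤ R) →
      (QuotientGroup.mk (glIncl F γ * r) : GLFin F ⧸ U.toSubgroup) = QuotientGroup.mk r' →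
      (QuotientGroup.mk γ : PGLIndex F) ∈ Γ := by
  obtain ⟨M, hM, hden⟩ := exists_adjVec_den U r r'
  refine ⟨adjVec ⁻¹' Set.univ.pi fun _ => {x : F | BoundedDen M x ∧
      ∀ w : InfinitePlace F, w x ≤ 128 * H ^ 8 * R},
    (Set.Finite.pi fun _ => finite_boundedDen F hM _).preimage adjVec_injective.injOn,
    fun γ g₁ g₂ h₁ h₂ hd hc p _ => ?_⟩
  refine ⟨hden γ hc p, fun w => ?_⟩
  rw [adjVec_mk, glEmb_adjEntry, div_le_iff₀ (H3.norm_det_pos _)]
  exact norm_adj_le (h₁ w) (h₂ w) (hd w) p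

end Fermat.Agent.LT.Kernel
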