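import Fermat.Agent.LT.Kernel.Test
import Fermat.Agent.LT.Kernel.Entries

/-!
# The automorphic kernel `∑_{c ∈ PGL₂(F)} k(x, c y) h(x⁻¹ c y)`

`autKer k h` of a point-pair kernel and a Hecke function is a locally finite sum, invariant under
`PGL₂(F)` in both variables, continuous and measurable.
-/

set_option autoImplicit false

noncomputable section

open MeasureTheory Matrix Topology Filter
open scoped NumberField
open NumberField (InfinitePlace)

namespace Fermat.Agent.LT.Kernel

variable {F : Type*} [Field F] [NumberField F] {U : Level F}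

/-- `k(x, y) h(x⁻¹ y)`. -/
def pairKer (k : PointKer F) (h : HeckeFn U) (x y : Y U) : ℂ :=
  k.toFun x.1 y.1 * h.kernel x.2 y.2

theorem pairKer_smul (k : PointKer F) (h : HeckeFn U) (γ : GL (Fin 2) F) (x y : Y U) :
    pairKer k h (γ • x) (γ • y) = pairKer k h x y := by
  rw [pairKer, pairKer, smul_snd, smul_snd, HeckeFn.kernel_smul]
  congr 1
  exact k.smul' (fun w => glEmb F w γ) x.1 y.1

/-- The terms are invariant under the diagonal action of `PGL₂(F)`. -/
theorem pairKer_pgl_smul (k : PointKer F) (h : HeckeFn U) (c : PGLIndex F) (x y : Y U) :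
    pairKer k h (c • x) (c • y) = pairKer k h x y :=
  QuotientGroup.induction_on c fun γ => pairKer_smul k h γ x y

/-- The automorphic kernel. -/
def autKer (k : PointKer F) (h : HeckeFn U) (x y : Y U) : ℂ :=
  ∑' c : PGLIndex F, pairKer k h x (c • y)

/-- `PGL₂(F)`-invariance in the second variable. -/
theorem autKer_pgl_smul_right (k : PointKer F) (h : HeckeFn U) (d : PGLIndex F) (x y : Y U) :
    autKer k h x (d • y) = autKer k h x y := by
  rw [autKer, autKer, ← (Equiv.mulRight d).tsum_eq fun c => pairKer k h x (c • y)]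
  exact tsum_congr fun c => by rw [Equiv.coe_mulRight, mul_smul]

/-- `PGL₂(F)`-invariance in the first variable. -/
theorem autKer_pgl_smul_left (k : PointKer F) (h : HeckeFn U) (d : PGLIndex F) (x y : Y U) :
    autKer k h (d • x) y = autKer k h x y := by
  rw [autKer, autKer, ← (Equiv.mulLeft d).tsum_eq fun c => pairKer k h (d • x) (c • y)]
  exact tsum_congr fun c => by rw [Equiv.coe_mulLeft, mul_smul, pairKer_pgl_smul]

/-- The automorphic kernel is invariant in the second variable. -/
theorem autKer_smul_right (k : PointKer F) (h : HeckeFn U) (γ : GL (Fin 2) F) (x y : Y U) :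
    autKer k h x (γ • y) = autKer k h x y :=
  autKer_pgl_smul_right k h (QuotientGroup.mk γ) x y

/-- The automorphic kernel is invariant in the first variable. -/
theorem autKer_smul_left (k : PointKer F) (h : HeckeFn U) (γ : GL (Fin 2) F) (x y : Y U) :
    autKer k h (γ • x) y = autKer k h x y :=
  autKer_pgl_smul_left k h (QuotientGroup.mk γ) x y

/-- The finite cosets paired with a given one. -/
theorem finite_kernel_support (h : HeckeFn U) (a : GLFin F ⧸ U.toSubgroup) :
    {d | h.kernel a d ≠ 0}.Finite := by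
  induction a using QuotientGroup.induction_on with | H a => ?_
  refine (h.finite_support.image fun s => a • s).subset fun d hd => ?_
  induction d using QuotientGroup.induction_on with | H d => ?_
  exact ⟨QuotientGroup.mk (a⁻¹ * d), ⟨a⁻¹ * d, hd, rfl⟩, by
    show a • (QuotientGroup.mk (a⁻¹ * d) : GLFin F ⧸ U.toSubgroup) = _
    rw [MulAction.Quotient.smul_mk, smul_eq_mul, mul_inv_cancel_left]⟩

/-- The affine matrix carrying the base point to `P`. -/
def toGL (P : H3) : GL (Fin 2) ℂ :=
  H3.affine (H3.tc P : ℂ) (H3.zc P) (Complex.ofReal_ne_zero.mpr (H3.tc_pos P).ne')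

/-- `toGL P` moves the origin to `P`. -/
theorem toGL_smul_origin (P : H3) : toGL P • H3.origin = P := by
  conv_rhs => rw [← H3.pt_coord P]
  rw [H3.pt, dif_pos (H3.tc_pos P)]
  rfl

/-- A bound for the entries of `toGL P` and its inverse for bounded `P`. -/
theorem sizeLE_toGL {P : H3} {T : ℝ} (hT : 1 ≤ T) (h1 : H3.tc P ≤ T) (h2 : 1 ≤ T * H3.tc P)
    (h3 : ‖H3.zc P‖ ≤ T) : SizeLE (T ^ 2) (toGL P) := by
  have ht := H3.tc_pos P
  have h0 : (0 : ℝ) ≤ T ^ 2 := sq_nonneg T
  have h1' : (1 : ℝ) ≤ T ^ 2 := one_le_pow₀ hT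
  have hTT : T ≤ T ^ 2 := by nlinarith
  have hinv : (H3.tc P)⁻¹ ≤ T := by
    rw [inv_le_iff_one_le_mul₀ ht]
    linarith
  intro i j
  refine ⟨?_, ?_⟩
  · fin_cases i <;> fin_cases j <;> simp [toGL, H3.affine, abs_of_pos ht] <;>
      linarith [le_abs_self T]
  · rw [Matrix.coe_units_inv, Matrix.inv_def, Matrix.adjugate_fin_two]
    fin_cases i <;> fin_cases j <;>
      simp [toGL, H3.affine, Matrix.det_fin_two_of, abs_of_pos ht, ht.ne'] <;>
      nlinarith [norm_nonneg (H3.zc P), inv_pos.mpr ht, le_abs_self T]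

theorem exists_size_of_isCompact {N : Set (InfinitePlace F → H3)} (hN : IsCompact N) :
    ∃ T : ℝ, 1 ≤ T ∧ ∀ P ∈ N, ∀ w, SizeLE (T ^ 2) (toGL (P w)) := by
  have hf : Continuous fun P : InfinitePlace F → H3 =>
      ∑ w, (H3.tc (P w) + (H3.tc (P w))⁻¹ + ‖H3.zc (P w)‖) := by
    refine continuous_finsetSum _ fun w _ => ?_
    have h1 : Continuous fun P : InfinitePlace F → H3 => H3.tc (P w) :=
      H3.continuous_tc.comp (continuous_apply w)
    have h2 : Continuous fun P : InfinitePlace F → H3 => ‖H3.zc (P w)‖ :=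
      (H3.continuous_zc.comp (continuous_apply w)).norm
    exact (h1.add (h1.inv₀ fun P => (H3.tc_pos _).ne')).add h2
  obtain ⟨B, hB⟩ := hN.exists_bound_of_continuousOn hf.continuousOn
  refine ⟨max B 1, le_max_right _ _, fun P hP w => ?_⟩
  have h := (le_abs_self _).trans ((hB P hP).trans (le_max_left B 1))
  have hw := Finset.single_le_sum (f := fun v => H3.tc (P v) + (H3.tc (P v))⁻¹ + ‖H3.zc (P v)‖)
    (fun v _ => by have := H3.tc_pos (P v); positivity) (Finset.mem_univ w)
  have ht := H3.tc_pos (P w)
  have hz := norm_nonneg (H3.zc (P w))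
  have hi := inv_pos.mpr ht
  refine sizeLE_toGL (le_max_right _ _) (by linarith) ?_ (by linarith)
  have : (H3.tc (P w))⁻¹ ≤ max B 1 := by linarith
  rwa [inv_le_iff_one_le_mul₀ ht] at this

/-- On compact sets of points only finitely many terms of the kernel are nonzero. -/
theorem exists_finset_support (k : PointKer F) (h : HeckeFn U) {N N' : Set (InfinitePlace F → H3)}
    (hN : IsCompact N) (hN' : IsCompact N') (a b : GLFin F ⧸ U.toSubgroup) :
    ∃ Γ : Finset (PGLIndex F), ∀ P ∈ N, ∀ Q ∈ N', ∀ c ∉ Γ,
      pairKer k h ((P, a) : Y U) (c • ((Q, b) : Y U)) = 0 := by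
  classical
  obtain ⟨T, hT, hs⟩ := exists_size_of_isCompact hN
  obtain ⟨T', hT', hs'⟩ := exists_size_of_isCompact hN'
  set H := max (T ^ 2) (T' ^ 2)
  induction b using QuotientGroup.induction_on with | H r => ?_
  choose Γ hΓ hmem using fun d : GLFin F ⧸ U.toSubgroup =>
    exists_finite_indices U r d.out H k.radius
  refine ⟨((finite_kernel_support h a).biUnion fun d _ => hΓ d).toFinset, fun P hP Q hQ c hc => ?_⟩
  by_contra hne
  refine hc ((Set.Finite.mem_toFinset _).mpr ?_)
  induction c using QuotientGroup.induction_on with | H γ => ?_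
  rw [pgl_mk_smul, pairKer] at hne
  replace hne := mul_ne_zero_iff.mp hne
  have hd := hne.2
  rw [smul_snd] at hd
  refine Set.mem_biUnion hd (hmem _ γ (fun w => toGL (P w)) (fun w => toGL (Q w))
    (fun w i j => ⟨((hs P hP w i j).1).trans (le_max_left _ _),
      ((hs P hP w i j).2).trans (le_max_left _ _)⟩)
    (fun w i j => ⟨((hs' Q hQ w i j).1).trans (le_max_right _ _),
      ((hs' Q hQ w i j).2).trans (le_max_right _ _)⟩) (fun w => ?_) ?_)
  · rw [toGL_smul_origin, toGL_smul_origin]
    exact k.cdist_le hne.1 w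
  · exact (QuotientGroup.out_eq' _).symm

/-- Only finitely many terms of the automorphic sum are nonzero. -/
theorem finite_support_pairKer (k : PointKer F) (h : HeckeFn U) (x y : Y U) :
    (Function.support fun c : PGLIndex F => pairKer k h x (c • y)).Finite := by
  obtain ⟨Γ, hΓ⟩ := exists_finset_support k h (isCompact_singleton (x := x.1))
    (isCompact_singleton (x := y.1)) x.2 y.2
  exact Γ.finite_toSet.subset fun c hc => by_contra fun h' => hc (hΓ x.1 rfl y.1 rfl c h')

/-- The automorphic sum converges to `autKer`. -/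
theorem hasSum_autKer (k : PointKer F) (h : HeckeFn U) (x y : Y U) :
    HasSum (fun c : PGLIndex F => pairKer k h x (c • y)) (autKer k h x y) :=
  (summable_of_hasFiniteSupport (finite_support_pairKer k h x y)).hasSum

theorem continuous_ySmul (γ : GL (Fin 2) F) : Continuous fun y : Y U => γ • y := by
  have h1 : Continuous fun y : Y U => fun w : InfinitePlace F => glEmb F w γ • y.1 w :=
    continuous_pi fun w =>
      (H3.continuous_smul_point _).comp ((continuous_apply w).comp continuous_fst)
  have h2 : Continuous fun y : Y U => glIncl F γ • y.2 :=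
    continuous_of_discreteTopology.comp continuous_snd
  exact h1.prodMk h2

/-- Each term of the automorphic sum is continuous. -/
theorem continuous_pairKer (k : PointKer F) (h : HeckeFn U) :
    Continuous fun p : Y U × Y U => pairKer k h p.1 p.2 := by
  have h1 : Continuous fun p : Y U × Y U => k.toFun p.1.1 p.2.1 :=
    k.continuous'.comp ((continuous_fst.comp continuous_fst).prodMk
      (continuous_fst.comp continuous_snd))
  have h2 : Continuous fun p : Y U × Y U => h.kernel p.1.2 p.2.2 := by
    have h3 : Continuous fun q : (GLFin F ⧸ U.toSubgroup) × (GLFin F ⧸ U.toSubgroup) =>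
        h.kernel q.1 q.2 := continuous_of_discreteTopology
    exact h3.comp ((continuous_snd.comp continuous_fst).prodMk (continuous_snd.comp continuous_snd))
  exact h1.mul h2

/-- The automorphic kernel is continuous. -/
theorem continuous_autKer (k : PointKer F) (h : HeckeFn U) :
    Continuous fun p : Y U × Y U => autKer k h p.1 p.2 := by
  refine continuous_iff_continuousAt.mpr fun p => ?_
  obtain ⟨N, hN, hNp⟩ := exists_compact_mem_nhds p.1.1
  obtain ⟨N', hN', hNq⟩ := exists_compact_mem_nhds p.2.1
  obtain ⟨Γ, hΓ⟩ := exists_finset_support k h hN hN' p.1.2 p.2.2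
  have hfin : Continuous fun q : Y U × Y U => ∑ c ∈ Γ, pairKer k h q.1 (c • q.2) := by
    refine continuous_finsetSum _ fun c _ => ?_
    induction c using QuotientGroup.induction_on with | H γ => ?_
    exact (continuous_pairKer k h).comp
      (continuous_fst.prodMk ((continuous_ySmul γ).comp continuous_snd))
  refine hfin.continuousAt.congr ?_
  have hmem : (N ×ˢ {p.1.2}) ×ˢ (N' ×ˢ {p.2.2}) ∈ 𝓝 p :=
    prod_mem_nhds (prod_mem_nhds hNp (mem_nhds_discrete.mpr rfl))
      (prod_mem_nhds hNq (mem_nhds_discrete.mpr rfl))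
  filter_upwards [hmem] with q hq
  obtain ⟨⟨h1, h2⟩, h3, h4⟩ := hq
  rw [autKer]
  refine (tsum_eq_sum fun c hc => ?_).symm
  have := hΓ q.1.1 h1 q.2.1 h3 c hc
  rwa [← (h2 : q.1.2 = p.1.2), ← (h4 : q.2.2 = p.2.2)] at this

/-- The automorphic kernel is measurable. -/
theorem measurable_autKer (k : PointKer F) (h : HeckeFn U) :
    Measurable fun p : Y U × Y U => autKer k h p.1 p.2 :=
  (continuous_autKer k h).measurable

end Fermat.Agent.LT.Kernel
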