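import Fermat.Agent.LT.H3.Coord
import Mathlib.Tactic.Positivity
import Mathlib.Analysis.Complex.Norm

/-!
# The distance `√(cdist − 1)` and Lipschitz estimates for `cdist`

`hdist` is invariant under `GL₂(ℂ)`, is at most `‖a‖ / t` for a horizontal translation by `a` at
height `t`, and `cdist P` is locally Lipschitz for it with a constant proportional to its value.
-/

set_option autoImplicit false

noncomputable section

open Matrix
open scoped ComplexConjugate ComplexOrder

namespace Fermat.Agent.LT.Kernel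

open H3

/-- A substitute for the hyperbolic distance near the diagonal. -/
def hdist (P Q : H3) : ℝ := Real.sqrt (cdist P Q - 1)

/-- `hdist` is nonnegative. -/
theorem hdist_nonneg (P Q : H3) : 0 ≤ hdist P Q := Real.sqrt_nonneg _

/-- `hdist` is symmetric. -/
theorem hdist_comm (P Q : H3) : hdist P Q = hdist Q P := by rw [hdist, hdist, cdist_comm]

theorem hdist_smul (g : GL (Fin 2) ℂ) (P Q : H3) : hdist (g • P) (g • Q) = hdist P Q := by
  rw [hdist, hdist, cdist_smul]

@[simp] theorem hdist_self (P : H3) : hdist P P = 0 := by simp [hdist]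

/-- Horizontal translations move a point at height `t` by `‖a‖ / (√2 t)`. -/
theorem hdist_translate (z a : ℂ) {t : ℝ} (ht : 0 < t) :
    hdist (pt z t) (pt (z + a) t) ≤ ‖a‖ / t := by
  rw [hdist, cdist_pt z (z + a) ht ht, sub_add_cancel_left, Complex.normSq_neg,
    Complex.normSq_eq_norm_sq]
  refine (Real.sqrt_le_sqrt ?_).trans_eq (Real.sqrt_sq (div_nonneg (norm_nonneg a) ht.le))
  rw [div_pow, div_sub_one (by positivity), div_le_div_iff₀ (by positivity) (by positivity)]
  nlinarith [sq_nonneg ‖a‖, mul_pos ht ht, mul_nonneg (sq_nonneg ‖a‖) (mul_pos ht ht).le]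

theorem mat_zero_zero (P : H3) : P.mat 0 0 = ((P.mat 0 0).re : ℂ) := by
  refine Complex.ext rfl ?_
  simpa using (Complex.pos_iff.mp (P.posDef.diag_pos (i := 0))).2.symm

/-- The upper left entry of the matrix of a point is positive. -/
theorem mat_zero_zero_pos (P : H3) : 0 < (P.mat 0 0).re :=
  (Complex.pos_iff.mp (P.posDef.diag_pos (i := 0))).1

/-- The determinant of the matrix of a point is one, in coordinates. -/
theorem det_entries (P : H3) :
    (P.mat 0 0).re * (P.mat 1 1).re - Complex.normSq (P.mat 0 1) = 1 := by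
  have h := P.det_eq
  rw [Matrix.det_fin_two, mat_one_zero, mat_one_one, mat_zero_zero, Complex.mul_conj] at h
  exact_mod_cast h

/-- `cdist` in terms of the matrix entries. -/
theorem cdist_entries (P Q : H3) :
    cdist P Q = ((P.mat 1 1).re * (Q.mat 0 0).re + (P.mat 0 0).re * (Q.mat 1 1).re
      - 2 * ((P.mat 0 1).re * (Q.mat 0 1).re + (P.mat 0 1).im * (Q.mat 0 1).im)) / 2 := by
  have hinv : P.mat⁻¹ = P.mat.adjugate := by
    rw [Matrix.inv_def, P.det_eq]; simp
  rw [cdist, hinv, Matrix.adjugate_fin_two, Matrix.trace_fin_two]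
  simp only [Matrix.mul_apply, Fin.sum_univ_two, Matrix.of_apply, Matrix.cons_val',
    Matrix.cons_val_zero, Matrix.cons_val_one, Matrix.cons_val_fin_one]
  rw [mat_one_zero P, mat_one_zero Q, mat_one_one P, mat_zero_zero P]
  simp only [Complex.add_re, Complex.mul_re, Complex.neg_re, Complex.neg_im, Complex.conj_re,
    Complex.conj_im, Complex.ofReal_re, Complex.ofReal_im]
  ring

theorem abs_sub_le_aux (p₀ p₁ xr xi b₀ b₁ yr yi S : ℝ) (hp₀ : 0 < p₀) (hp₁ : 0 < p₁)
    (hA : p₀ * p₁ - (xr * xr + xi * xi) = 1) (hS : 0 ≤ S)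
    (hsum : (b₀ - 1) ^ 2 + (b₁ - 1) ^ 2 + 2 * (yr ^ 2 + yi ^ 2) = 4 * S ^ 2) :
    |(p₁ + p₀) / 2 - (p₁ * b₀ + p₀ * b₁ - 2 * (xr * yr + xi * yi)) / 2|
      ≤ 6 * ((p₁ + p₀) / 2) * S := by
  have hbound : ∀ c : ℝ, c ^ 2 ≤ 4 * S ^ 2 → |c| ≤ 2 * S := fun c hc =>
    abs_le_of_sq_le_sq (by rw [mul_pow]; linarith) (by linarith)
  have hu := hbound (b₀ - 1) (by nlinarith [sq_nonneg (b₁ - 1), sq_nonneg yr, sq_nonneg yi])
  have hv := hbound (b₁ - 1) (by nlinarith [sq_nonneg (b₀ - 1), sq_nonneg yr, sq_nonneg yi])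
  have hyr := hbound yr (by nlinarith [sq_nonneg (b₀ - 1), sq_nonneg (b₁ - 1), sq_nonneg yi])
  have hyi := hbound yi (by nlinarith [sq_nonneg (b₀ - 1), sq_nonneg (b₁ - 1), sq_nonneg yr])
  have hx : xr * xr + xi * xi ≤ ((p₀ + p₁) / 2) ^ 2 := by nlinarith [sq_nonneg (p₀ - p₁)]
  have hxr : |xr| ≤ (p₀ + p₁) / 2 :=
    abs_le_of_sq_le_sq (by nlinarith [mul_self_nonneg xi]) (by linarith)
  have hxi : |xi| ≤ (p₀ + p₁) / 2 :=
    abs_le_of_sq_le_sq (by nlinarith [mul_self_nonneg xr]) (by linarith)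
  have h1 : |p₁ * (b₀ - 1)| ≤ p₁ * (2 * S) := by
    rw [abs_mul, abs_of_pos hp₁]; exact mul_le_mul_of_nonneg_left hu hp₁.le
  have h2 : |p₀ * (b₁ - 1)| ≤ p₀ * (2 * S) := by
    rw [abs_mul, abs_of_pos hp₀]; exact mul_le_mul_of_nonneg_left hv hp₀.le
  have h3 : |xr * yr| ≤ (p₀ + p₁) / 2 * (2 * S) := by
    rw [abs_mul]; exact mul_le_mul hxr hyr (abs_nonneg _) (by linarith)
  have h4 : |xi * yi| ≤ (p₀ + p₁) / 2 * (2 * S) := by
    rw [abs_mul]; exact mul_le_mul hxi hyi (abs_nonneg _) (by linarith)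
  rw [abs_le] at h1 h2 h3 h4 ⊢
  constructor <;> nlinarith [h1.1, h1.2, h2.1, h2.2, h3.1, h3.2, h4.1, h4.2]

/-- `cdist` to a fixed point is Lipschitz for `hdist` with the distance as constant. -/
theorem abs_cdist_sub_le (P Q Q' : H3) :
    |cdist P Q - cdist P Q'| ≤ 6 * cdist P Q * (Real.sqrt (cdist Q Q') * hdist Q Q') := by
  obtain ⟨g, hg⟩ := exists_smul_eq Q origin
  rw [← cdist_smul g P Q, ← cdist_smul g P Q', ← cdist_smul g Q Q', ← hdist_smul g Q Q', hg]
  generalize g • P = A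
  generalize g • Q' = B
  have hd1 := one_le_cdist origin B
  have hsqrt : Real.sqrt (cdist origin B) * hdist origin B =
      Real.sqrt (cdist origin B * (cdist origin B - 1)) := (Real.sqrt_mul (by linarith) _).symm
  rw [hsqrt]
  set S := Real.sqrt (cdist origin B * (cdist origin B - 1)) with hS
  have hS2 : S ^ 2 = cdist origin B * (cdist origin B - 1) := Real.sq_sqrt (by nlinarith)
  have hS0 : 0 ≤ S := Real.sqrt_nonneg _
  have hdB : cdist origin B = ((B.mat 0 0).re + (B.mat 1 1).re) / 2 := by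
    rw [cdist_entries]; simp [origin]
  have hdA : cdist A origin = ((A.mat 1 1).re + (A.mat 0 0).re) / 2 := by
    rw [cdist_entries]; simp [origin]
  have hB := det_entries B
  have hA := det_entries A
  rw [Complex.normSq_apply] at hA hB
  have hsum : ((B.mat 0 0).re - 1) ^ 2 + ((B.mat 1 1).re - 1) ^ 2
      + 2 * ((B.mat 0 1).re ^ 2 + (B.mat 0 1).im ^ 2) = 4 * S ^ 2 := by
    rw [hS2, hdB]; nlinarith
  rw [cdist_entries A B, hdA]
  have key := abs_sub_le_aux _ _ _ _ _ _ _ _ _ (mat_zero_zero_pos A) (mat_one_one_pos A) hA hS0 hsum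
  convert key using 2

end Fermat.Agent.LT.Kernel
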