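import Fermat.Agent.LT.Setup.Operators
import Fermat.Agent.LT.Kernel.Dist
import Mathlib.Topology.MetricSpace.Lipschitz

/-!
# Test kernels at the infinite places

A `PointKer` is a continuous kernel on pairs of points of `∏ ℍ³`, invariant under the diagonal
action, supported at bounded distance and Lipschitz for `hdist`; a product of Lipschitz radial
profiles gives one (`PointKer.ofRadial`).
-/

set_option autoImplicit false

noncomputable section

open MeasureTheory Matrix
open scoped NumberField
open NumberField (InfinitePlace)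

namespace Fermat.Agent.LT.Kernel

variable {F : Type*} [Field F] [NumberField F]

variable (F) in
/-- A continuous invariant kernel on `H3^places`, supported near the diagonal and Lipschitz in the
second variable. -/
structure PointKer where
  /-- The kernel. -/
  toFun : (InfinitePlace F → H3) → (InfinitePlace F → H3) → ℂ
  smul' : ∀ (g : InfinitePlace F → GL (Fin 2) ℂ) (P Q : InfinitePlace F → H3),
    toFun (g • P) (g • Q) = toFun P Q
  continuous' : Continuous fun p : (InfinitePlace F → H3) × (InfinitePlace F → H3) => toFun p.1 p.2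
  support' : ∃ R : ℝ, 1 ≤ R ∧ ∀ P Q, toFun P Q ≠ 0 → ∀ w, H3.cdist (P w) (Q w) ≤ R
  lipschitz' : ∃ L : ℝ, 0 ≤ L ∧ ∀ P Q Q',
    ‖toFun P Q - toFun P Q'‖ ≤ L * ∑ w, hdist (Q w) (Q' w)

namespace PointKer

variable (k : PointKer F)

/-- A radius containing the support. -/
def radius : ℝ := k.support'.choose

/-- The radius is at least one. -/
theorem one_le_radius : 1 ≤ k.radius := k.support'.choose_spec.1

/-- The radius is positive. -/
theorem radius_pos : 0 < k.radius := one_pos.trans_le k.one_le_radius

/-- Points where a kernel is nonzero are at bounded distance. -/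
theorem cdist_le {P Q : InfinitePlace F → H3} (h : k.toFun P Q ≠ 0) (w : InfinitePlace F) :
    H3.cdist (P w) (Q w) ≤ k.radius :=
  k.support'.choose_spec.2 P Q h w

/-- A kernel is continuous in the second variable. -/
theorem continuous_right (P : InfinitePlace F → H3) : Continuous (k.toFun P) :=
  k.continuous'.comp (Continuous.prodMk_right P)

/-- A point-pair kernel is bounded. -/
theorem exists_bound : ∃ B : ℝ, 0 ≤ B ∧ ∀ P Q, ‖k.toFun P Q‖ ≤ B := by
  have hK : IsCompact (Set.univ.pi fun _ : InfinitePlace F =>
      {Q : H3 | H3.cdist H3.origin Q ≤ k.radius}) :=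
    isCompact_univ_pi fun _ => H3.isCompact_cdist_le _ _
  obtain ⟨B, hB⟩ := hK.exists_bound_of_continuousOn
    (k.continuous_right fun _ => H3.origin).continuousOn
  refine ⟨max B 0, le_max_right _ _, fun P Q => ?_⟩
  choose g hg using fun w => H3.exists_smul_eq (P w) H3.origin
  rw [← k.smul' g P Q, show g • P = fun _ => H3.origin from funext hg]
  by_cases h : k.toFun (fun _ => H3.origin) (g • Q) = 0
  · simp [h]
  · exact (hB _ fun w _ => k.cdist_le h w).trans (le_max_left _ _)

/-- A bound on the values. -/
def bound : ℝ := k.exists_bound.choose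

/-- The bound is nonnegative. -/
theorem bound_nonneg : 0 ≤ k.bound := k.exists_bound.choose_spec.1

/-- The values are bounded by `bound`. -/
theorem norm_le (P Q : InfinitePlace F → H3) : ‖k.toFun P Q‖ ≤ k.bound :=
  k.exists_bound.choose_spec.2 P Q

/-- A Lipschitz constant. -/
def lip : ℝ := k.lipschitz'.choose

/-- The Lipschitz constant is nonnegative. -/
theorem lip_nonneg : 0 ≤ k.lip := k.lipschitz'.choose_spec.1

/-- A point-pair kernel is Lipschitz in the second variable. -/
theorem norm_sub_le (P Q Q' : InfinitePlace F → H3) :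
    ‖k.toFun P Q - k.toFun P Q'‖ ≤ k.lip * ∑ w, hdist (Q w) (Q' w) :=
  k.lipschitz'.choose_spec.2 P Q Q'

end PointKer

/-- A profile with compact support and a Lipschitz constant is Lipschitz in `cdist`. -/
theorem exists_profile_lip {f : ℝ → ℝ} {L R B : ℝ} (hL : 0 ≤ L) (hR : 1 ≤ R) (hB : 0 ≤ B)
    (hlip : ∀ a b, |f a - f b| ≤ L * |a - b|) (hsupp : ∀ a, R < a → f a = 0)
    (hbd : ∀ a, |f a| ≤ B) (P Q Q' : H3) :
    |f (H3.cdist P Q) - f (H3.cdist P Q')| ≤ (12 * L * R + 2 * B) * hdist Q Q' := by
  have hd := hdist_nonneg Q Q'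
  rcases le_or_gt 1 (hdist Q Q') with h1 | h1
  · calc |f (H3.cdist P Q) - f (H3.cdist P Q')| ≤ |f (H3.cdist P Q)| + |f (H3.cdist P Q')| :=
          abs_sub _ _
      _ ≤ 2 * B := by linarith [hbd (H3.cdist P Q), hbd (H3.cdist P Q')]
      _ ≤ (12 * L * R + 2 * B) * hdist Q Q' := by
          nlinarith [mul_nonneg hL (le_trans zero_le_one hR)]
  have hc : H3.cdist Q Q' ≤ 2 := by
    rw [hdist, Real.sqrt_lt' one_pos] at h1
    linarith
  have hs : Real.sqrt (H3.cdist Q Q') ≤ 2 :=
    (Real.sqrt_le_iff).mpr ⟨by norm_num, by linarith⟩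
  have key : ∀ A A' : H3, hdist A A' = hdist Q Q' → H3.cdist A A' = H3.cdist Q Q' →
      H3.cdist P A ≤ R → |H3.cdist P A - H3.cdist P A'| ≤ 12 * R * hdist Q Q' := by
    intro A A' h2 h3 hA
    refine (abs_cdist_sub_le P A A').trans ?_
    rw [h2, h3]
    have := H3.one_le_cdist P A
    calc 6 * H3.cdist P A * (Real.sqrt (H3.cdist Q Q') * hdist Q Q')
        ≤ 6 * R * (2 * hdist Q Q') := by gcongr
      _ = 12 * R * hdist Q Q' := by ring
  have fin : ∀ A A' : H3, hdist A A' = hdist Q Q' → H3.cdist A A' = H3.cdist Q Q' →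
      H3.cdist P A ≤ R → |f (H3.cdist P A) - f (H3.cdist P A')| ≤
        (12 * L * R + 2 * B) * hdist Q Q' := by
    intro A A' h2 h3 hA
    refine (hlip _ _).trans ((mul_le_mul_of_nonneg_left (key A A' h2 h3 hA) hL).trans ?_)
    nlinarith
  rcases le_or_gt (H3.cdist P Q) R with h | h
  · exact fin Q Q' rfl rfl h
  rcases le_or_gt (H3.cdist P Q') R with h' | h'
  · rw [abs_sub_comm]
    exact fin Q' Q (hdist_comm _ _) (H3.cdist_comm _ _) h'
  · rw [hsupp _ h, hsupp _ h', sub_self, abs_zero]
    exact mul_nonneg (by positivity) hd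

/-- Difference of two products of bounded numbers. -/
theorem abs_prod_sub_prod_le {ι : Type*} {B : ℝ} (hB : 1 ≤ B) {a b : ι → ℝ} (s : Finset ι)
    (ha : ∀ i, |a i| ≤ B) (hb : ∀ i, |b i| ≤ B) :
    |∏ i ∈ s, a i - ∏ i ∈ s, b i| ≤ B ^ s.card * ∑ i ∈ s, |a i - b i| := by
  classical
  induction s using Finset.induction_on with
  | empty => simp
  | insert i s hi ih =>
    rw [Finset.prod_insert hi, Finset.prod_insert hi, Finset.sum_insert hi,
      Finset.card_insert_of_notMem hi, pow_succ,
      show a i * ∏ j ∈ s, a j - b i * ∏ j ∈ s, b j =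
        a i * (∏ j ∈ s, a j - ∏ j ∈ s, b j) + (a i - b i) * ∏ j ∈ s, b j by ring]
    refine (abs_add_le _ _).trans ?_
    rw [abs_mul, abs_mul]
    have h1 : |a i| * |∏ j ∈ s, a j - ∏ j ∈ s, b j| ≤
        B * (B ^ s.card * ∑ j ∈ s, |a j - b j|) :=
      mul_le_mul (ha i) ih (abs_nonneg _) (zero_le_one.trans hB)
    have h2 : |∏ j ∈ s, b j| ≤ B ^ s.card := by
      rw [Finset.abs_prod]
      exact (Finset.prod_le_prod (fun j _ => abs_nonneg _) fun j _ => hb j).trans_eq
        (Finset.prod_const B)
    have h3 : B ^ s.card ≤ B ^ s.card * B := le_mul_of_one_le_right (by positivity) hB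
    nlinarith [abs_nonneg (a i - b i), Finset.sum_nonneg fun j (_ : j ∈ s) =>
      abs_nonneg (a j - b j)]

theorem continuous_weight (k : RadialKernel F) :
    Continuous fun p : (InfinitePlace F → H3) × (InfinitePlace F → H3) =>
      (k.weight p.1 p.2 : ℂ) := by
  have h1 : ∀ w : InfinitePlace F,
      Continuous fun p : (InfinitePlace F → H3) × (InfinitePlace F → H3) =>
      ((p.1 w, p.2 w) : H3 × H3) := fun w =>
    ((continuous_apply w).comp continuous_fst).prodMk ((continuous_apply w).comp continuous_snd)
  have h2 : ∀ w : InfinitePlace F,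
      Continuous fun p : (InfinitePlace F → H3) × (InfinitePlace F → H3) =>
      k.profile w (H3.cdist (p.1 w) (p.2 w)) := fun w => by
    have h3 := (k.continuous w).comp (H3.continuous_cdist.comp (h1 w))
    exact h3
  have h4 : Continuous fun p : (InfinitePlace F → H3) × (InfinitePlace F → H3) =>
      ∏ w, k.profile w (H3.cdist (p.1 w) (p.2 w)) := continuous_finsetProd _ fun w _ => h2 w
  exact Complex.continuous_ofReal.comp h4

/-- The weight of a radial kernel is invariant. -/
theorem weight_smul (k : RadialKernel F) (g : InfinitePlace F → GL (Fin 2) ℂ)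
    (P Q : InfinitePlace F → H3) : k.weight (g • P) (g • Q) = k.weight P Q := by
  unfold RadialKernel.weight
  exact Finset.prod_congr rfl fun w _ => congrArg (k.profile w) (H3.cdist_smul (g w) (P w) (Q w))

/-- The test kernel of Lipschitz radial profiles. -/
def PointKer.ofRadial (k : RadialKernel F) (hk : ∀ w, ∃ L, LipschitzWith L (k.profile w)) :
    PointKer F where
  toFun P Q := (k.weight P Q : ℂ)
  smul' g P Q := congrArg (fun r : ℝ => (r : ℂ)) (weight_smul k g P Q)
  continuous' := continuous_weight k
  support' := by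
    classical
    choose R hR using fun w => (k.hasCompactSupport w).isCompact.bddAbove
    refine ⟨1 + ∑ w, |R w|, le_add_of_nonneg_right (Finset.sum_nonneg fun _ _ => abs_nonneg _),
      fun P Q h w => ?_⟩
    rw [Complex.ofReal_ne_zero, RadialKernel.weight, Finset.prod_ne_zero_iff] at h
    have h1 := hR w (subset_tsupport _ (h w (Finset.mem_univ w)))
    have h2 := Finset.single_le_sum (f := fun w => |R w|) (fun _ _ => abs_nonneg _)
      (Finset.mem_univ w)
    linarith [le_abs_self (R w)]
  lipschitz' := by
    classical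
    choose L hL using hk
    choose R hR using fun w => (k.hasCompactSupport w).isCompact.bddAbove
    choose B hB using fun w =>
      (k.continuous w).bounded_above_of_compact_support (k.hasCompactSupport w)
    set C := fun w => 12 * (L w : ℝ) * (1 + |R w|) + 2 * |B w|
    set B' := 1 + ∑ w, |B w| with hB'
    have hB1 : 1 ≤ B' := le_add_of_nonneg_right (Finset.sum_nonneg fun _ _ => abs_nonneg _)
    have hbd : ∀ w a, |k.profile w a| ≤ B' := fun w a => by
      have h2 := Finset.single_le_sum (f := fun w => |B w|) (fun _ _ => abs_nonneg _)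
        (Finset.mem_univ w)
      have h3 := hB w a
      rw [Real.norm_eq_abs] at h3
      linarith [le_abs_self (B w)]
    have hC : ∀ w, 0 ≤ C w := fun w => by simp only [C]; positivity
    refine ⟨B' ^ (Finset.univ : Finset (InfinitePlace F)).card * ∑ w, C w,
      mul_nonneg (by positivity) (Finset.sum_nonneg fun w _ => hC w), fun P Q Q' => ?_⟩
    rw [← Complex.ofReal_sub, Complex.norm_real, Real.norm_eq_abs, RadialKernel.weight,
      RadialKernel.weight]
    refine (abs_prod_sub_prod_le hB1 _ (fun w => hbd w _) (fun w => hbd w _)).trans ?_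
    rw [mul_assoc]
    refine mul_le_mul_of_nonneg_left ?_ (by positivity)
    rw [Finset.mul_sum]
    refine Finset.sum_le_sum fun w _ => ?_
    refine (exists_profile_lip (R := 1 + |R w|) (L w).coe_nonneg (by linarith [abs_nonneg (R w)])
      (abs_nonneg (B w))
      (fun a b => by simpa [Real.dist_eq] using (hL w).dist_le_mul a b) (fun a ha => ?_)
      (fun a => (hB w a).trans (le_abs_self _)) (P w) (Q w) (Q' w)).trans ?_
    · by_contra h
      linarith [hR w (subset_tsupport _ h), le_abs_self (R w)]
    · exact mul_le_mul_of_nonneg_right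
        (Finset.single_le_sum (f := C) (fun v _ => hC v) (Finset.mem_univ w)) (hdist_nonneg _ _)

/-- The values of the test kernel of radial profiles. -/
theorem PointKer.ofRadial_apply (k : RadialKernel F)
    (hk : ∀ w, ∃ L, LipschitzWith L (k.profile w)) (P Q : InfinitePlace F → H3) :
    (PointKer.ofRadial k hk).toFun P Q = (k.weight P Q : ℂ) := rfl

end Fermat.Agent.LT.Kernel
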