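import Mathlib.NumberTheory.NumberField.CanonicalEmbedding.Basic
import Mathlib.Analysis.SpecialFunctions.Pow.Real
import Mathlib.Topology.Algebra.Module.FiniteDimension

/-!
# Counting integers in a box, and the height exponent

At most `C (1 + A) ^ n` integers of `F` have all pairwise differences bounded by `A`, where
`n = [F : ℚ]`, and `n ≤ 2 r` for the number `r` of infinite places.
-/

set_option autoImplicit false

noncomputable section

open scoped NumberField
open NumberField (InfinitePlace)
open Module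

namespace Fermat.Agent.LT.Kernel

variable (F : Type*) [Field F] [NumberField F]

/-- Coordinates on the integral basis are bounded by the archimedean values. -/
theorem exists_repr_bound :
    ∃ C : ℝ, 0 ≤ C ∧ ∀ (x : F) (B : ℝ), (∀ φ : F →+* ℂ, ‖φ x‖ ≤ B) →
      ∀ i, |((NumberField.integralBasis F).repr x i : ℝ)| ≤ C * B := by
  classical
  let T : ((F →+* ℂ) → ℂ) →L[ℂ] (Free.ChooseBasisIndex ℤ (𝓞 F) → ℂ) :=
    LinearMap.toContinuousLinearMap
      (NumberField.canonicalEmbedding.latticeBasis F).equivFun.toLinearMap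
  refine ⟨‖T‖, T.opNorm_nonneg, fun x B hB i => ?_⟩
  have h0 : 0 ≤ B := by
    obtain ⟨φ⟩ : Nonempty (F →+* ℂ) := inferInstance
    exact (norm_nonneg _).trans (hB φ)
  have h1 : ‖NumberField.canonicalEmbedding F x‖ ≤ B :=
    (pi_norm_le_iff_of_nonneg h0).mpr fun φ => hB φ
  have h2 : T (NumberField.canonicalEmbedding F x) i =
      (((NumberField.integralBasis F).repr x i : ℚ) : ℂ) :=
    NumberField.canonicalEmbedding.integralBasis_repr_apply F x i
  have h3 : |((NumberField.integralBasis F).repr x i : ℝ)| =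
      ‖T (NumberField.canonicalEmbedding F x) i‖ := by
    rw [h2, ← Complex.ofReal_ratCast, Complex.norm_real, Real.norm_eq_abs]
  rw [h3]
  exact (norm_le_pi_norm _ i).trans
    ((T.le_opNorm _).trans (mul_le_mul_of_nonneg_left h1 T.opNorm_nonneg))

/-- The number of integers in a set of bounded archimedean diameter. -/
theorem exists_count :
    ∃ C : ℝ, 0 ≤ C ∧ ∀ (A : ℝ), 0 ≤ A → ∀ S : Finset (𝓞 F),
      (∀ x ∈ S, ∀ y ∈ S, ∀ w : InfinitePlace F, w ((x : F) - y) ≤ A) →
        (S.card : ℝ) ≤ C * (1 + A) ^ Module.finrank ℚ F := by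
  classical
  obtain ⟨C, hC, hb⟩ := exists_repr_bound F
  refine ⟨(2 * C + 1) ^ Module.finrank ℚ F, by positivity, fun A hA S hS => ?_⟩
  rw [← mul_pow]
  rcases S.eq_empty_or_nonempty with rfl | ⟨x₀, hx₀⟩
  · simp only [Finset.card_empty, Nat.cast_zero]; positivity
  let f : 𝓞 F → (Free.ChooseBasisIndex ℤ (𝓞 F) → ℤ) := fun x i =>
    (NumberField.RingOfIntegers.basis F).repr (x - x₀) i
  have hf : Function.Injective f := fun x y hxy => by
    have : (NumberField.RingOfIntegers.basis F).repr (x - x₀) =
        (NumberField.RingOfIntegers.basis F).repr (y - x₀) := Finsupp.ext fun i => congrFun hxy i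
    simpa using (NumberField.RingOfIntegers.basis F).repr.injective this
  set m := ⌊C * A⌋₊
  have hsub : S.image f ⊆ Fintype.piFinset fun _ => Finset.Icc (-(m : ℤ)) m := by
    intro v hv
    obtain ⟨x, hx, rfl⟩ := Finset.mem_image.mp hv
    refine Fintype.mem_piFinset.mpr fun i => Finset.mem_Icc.mpr (abs_le.mp ?_)
    have h1 := hb ((x : F) - x₀) A ((InfinitePlace.le_iff_le _ _).mp (hS x hx x₀ hx₀)) i
    rw [← map_sub, NumberField.integralBasis_repr_apply, eq_intCast, Rat.cast_intCast,
      ← Int.cast_abs, Int.abs_eq_natAbs, Int.cast_natCast] at h1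
    rw [Int.abs_eq_natAbs]
    exact_mod_cast Nat.le_floor h1
  have hcard := Finset.card_le_card hsub
  rw [Finset.card_image_of_injective S hf, Fintype.card_piFinset, Finset.prod_const,
    Int.card_Icc, Finset.card_univ, ← Module.finrank_eq_card_chooseBasisIndex,
    NumberField.RingOfIntegers.rank, show ((m : ℤ) + 1 - -(m : ℤ)).toNat = 2 * m + 1 by omega]
    at hcard
  calc (S.card : ℝ) ≤ ((2 * m + 1 : ℕ) : ℝ) ^ Module.finrank ℚ F := by exact_mod_cast hcard
    _ ≤ _ := by
      refine pow_le_pow_left₀ (by positivity) ?_ _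
      have := Nat.floor_le (show 0 ≤ C * A by positivity)
      push_cast
      nlinarith

/-- `[F : ℚ]` is at most twice the number of infinite places. -/
theorem finrank_le_two_mul_card :
    Module.finrank ℚ F ≤ 2 * Fintype.card (InfinitePlace F) := by
  have h := InfinitePlace.sum_mult_eq (K := F)
  rw [← h, ← Finset.card_univ, mul_comm]
  refine Finset.sum_le_card_nsmul _ _ 2 fun w _ => ?_
  unfold InfinitePlace.mult
  split_ifs <;> omega

/-- The exponent of the height in the bound on cuspidal kernels. -/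
def gainExp : ℝ := 2 - (Fintype.card (InfinitePlace F) : ℝ)⁻¹

/-- The gain exponent is at least one. -/
theorem one_le_gainExp : 1 ≤ gainExp F := by
  have h : (1 : ℝ) ≤ Fintype.card (InfinitePlace F) := by
    exact_mod_cast Fintype.card_pos
  have := inv_le_one_of_one_le₀ h
  rw [gainExp]
  linarith

/-- The gain exponent is less than two. -/
theorem gainExp_lt_two : gainExp F < 2 := by
  have h : (0 : ℝ) < Fintype.card (InfinitePlace F) := by exact_mod_cast Fintype.card_pos
  have := inv_pos.mpr h
  rw [gainExp]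
  linarith

variable {F}

/-- `∏ t_w ^ (2 - 1/r)`. -/
def heightPow (t : InfinitePlace F → ℝ) : ℝ := ∏ w, t w ^ gainExp F

/-- For balanced heights, the top height to the power `2 r - 1` is bounded by `heightPow`. -/
theorem pow_le_heightPow {B : ℝ} (hB : 0 ≤ B) {t : InfinitePlace F → ℝ} (ht : ∀ w, 0 < t w)
    (w₀ : InfinitePlace F) (hbal : ∀ w, t w₀ ≤ B * t w) :
    t w₀ ^ (2 * Fintype.card (InfinitePlace F) - 1) ≤
      B ^ (2 * Fintype.card (InfinitePlace F) - 1) * heightPow t := by
  have hr : 1 ≤ Fintype.card (InfinitePlace F) := Fintype.card_pos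
  set r := Fintype.card (InfinitePlace F) with hrdef
  have he : (r : ℝ) * gainExp F = ((2 * r - 1 : ℕ) : ℝ) := by
    have : (r : ℝ) ≠ 0 := by exact_mod_cast (by omega : r ≠ 0)
    rw [gainExp, ← hrdef, Nat.cast_sub (by omega)]
    push_cast
    field_simp
  have he0 : 0 ≤ gainExp F := le_trans zero_le_one (one_le_gainExp F)
  have key : ∀ a : ℝ, 0 ≤ a → (∏ _w : InfinitePlace F, a ^ gainExp F) = a ^ (2 * r - 1) := by
    intro a ha
    rw [Finset.prod_const, Finset.card_univ, ← hrdef, ← Real.rpow_natCast (a ^ gainExp F),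
      ← Real.rpow_mul ha, mul_comm, he, Real.rpow_natCast]
  calc t w₀ ^ (2 * r - 1) = ∏ _w : InfinitePlace F, t w₀ ^ gainExp F := (key _ (ht w₀).le).symm
    _ ≤ ∏ w, (B * t w) ^ gainExp F := Finset.prod_le_prod
        (fun _ _ => Real.rpow_nonneg (ht w₀).le _)
        fun w _ => Real.rpow_le_rpow (ht w₀).le (hbal w) he0
    _ = ∏ w, B ^ gainExp F * t w ^ gainExp F :=
        Finset.prod_congr rfl fun w _ => Real.mul_rpow hB (ht w).le
    _ = B ^ (2 * r - 1) * heightPow t := by rw [Finset.prod_mul_distrib, key B hB]; rfl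

/-- `heightPow` of nonnegative heights is nonnegative. -/
theorem heightPow_nonneg {t : InfinitePlace F → ℝ} (ht : ∀ w, 0 ≤ t w) : 0 ≤ heightPow t :=
  Finset.prod_nonneg fun w _ => Real.rpow_nonneg (ht w) _

end Fermat.Agent.LT.Kernel
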