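import Fermat.Agent.LT.Kernel.Test
import Fermat.Agent.LT.Kernel.Periodic
import Fermat.Agent.LT.Kernel.Count
import Fermat.Agent.LT.Kernel.Entries

/-!
# The line lemma

For a cuspidal Hecke function the sum `∑_β k(P, n(β) Q) h(r⁻¹ n(β) m)` over the field is bounded
by a multiple of `heightPow` of the heights of `P`, high in the cusp with balanced heights
(`exists_line_bound`).
-/

set_option autoImplicit false

noncomputable section

open Matrix
open scoped NumberField
open NumberField (InfinitePlace)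

namespace Fermat.Agent.LT.Kernel

variable {F : Type*} [Field F] [NumberField F] {U : Level F}

omit [NumberField F] in
/-- `n(β)` acts as an affine map. -/
theorem glEmb_unip (w : InfinitePlace F) (β : F) :
    glEmb F w (unip β) = H3.affine 1 (w.embedding β) one_ne_zero := by
  ext i j
  show w.embedding ((unip β : GL (Fin 2) F).val i j) = _
  fin_cases i <;> fin_cases j <;> simp [H3.affine]

omit [NumberField F] in
/-- `n(β)` translates horizontally. -/
theorem glEmb_unip_smul (w : InfinitePlace F) (β : F) (Q : H3) :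
    glEmb F w (unip β) • Q = H3.pt (H3.zc Q + w.embedding β) (H3.tc Q) := by
  conv_lhs => rw [← H3.pt_coord Q]
  rw [glEmb_unip, H3.affine_smul _ _ _ _ (H3.tc_pos Q), norm_one, one_mul, one_mul]

/-- Close points have comparable heights. -/
theorem tc_le_of_cdist_le {P Q : H3} {R : ℝ} (h : H3.cdist P Q ≤ R) :
    H3.tc Q ≤ 2 * R * H3.tc P ∧ H3.tc P ≤ 2 * R * H3.tc Q ∧
      ‖H3.zc P - H3.zc Q‖ ≤ 2 * R * H3.tc P := by
  have hp := H3.tc_pos P
  have hq := H3.tc_pos Q
  have hR : 1 ≤ R := (H3.one_le_cdist P Q).trans h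
  rw [H3.cdist_eq, div_le_iff₀ (by positivity)] at h
  have hn := Complex.normSq_nonneg (H3.zc P - H3.zc Q)
  have h1 : H3.tc Q ≤ 2 * R * H3.tc P := by nlinarith
  have h2 : H3.tc P ≤ 2 * R * H3.tc Q := by nlinarith
  refine ⟨h1, h2, (pow_le_pow_iff_left₀ (norm_nonneg _) (by positivity) two_ne_zero).mp ?_⟩
  rw [← Complex.normSq_eq_norm_sq]
  calc Complex.normSq (H3.zc P - H3.zc Q) ≤ 2 * R * H3.tc Q * H3.tc P := by nlinarith
    _ ≤ 2 * R * (2 * R * H3.tc P) * H3.tc P := by gcongr
    _ = (2 * R * H3.tc P) ^ 2 := by ring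

/-- Finitely many multiples of `N` in `𝓞 F` lie in a product of discs. -/
theorem finite_integers_near (F : Type*) [Field F] [NumberField F] (c : InfinitePlace F → ℂ)
    (A : InfinitePlace F → ℝ) {N : ℕ} (hN : 0 < N) :
    {d : 𝓞 F | ∀ w : InfinitePlace F,
      ‖w.embedding ((N : F) * (d : F)) - c w‖ ≤ A w}.Finite := by
  classical
  refine ((finite_boundedDen F one_pos (∑ w, (‖c w‖ + |A w|))).preimage
    NumberField.RingOfIntegers.coe_injective.injOn).subset fun d hd => ⟨⟨d, by simp⟩, fun w => ?_⟩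
  have h1 := hd w
  have h2 : ‖w.embedding ((N : F) * (d : F))‖ ≤ ‖c w‖ + |A w| := by
    have h3 := norm_sub_norm_le (w.embedding ((N : F) * (d : F))) (c w)
    linarith [le_abs_self (A w)]
  rw [InfinitePlace.norm_embedding_eq, map_mul] at h2
  have h4 : w (d : F) ≤ w ((N : ℕ) : F) * w (d : F) := by
    refine le_mul_of_one_le_left (apply_nonneg w _) ?_
    rw [← InfinitePlace.norm_embedding_eq, map_natCast, Complex.norm_natCast]
    exact_mod_cast hN
  exact (h4.trans h2).trans (Finset.single_le_sum (f := fun v => ‖c v‖ + |A v|)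
    (fun v _ => by positivity) (Finset.mem_univ w))

/-- A nonzero term of the line sum: the heights are comparable and `β` is near the difference of
the horizontal coordinates. -/
theorem of_line_term_ne_zero (k : PointKer F) {P Q : InfinitePlace F → H3} {β : F}
    (hne : k.toFun P (fun w => glEmb F w (unip β) • Q w) ≠ 0) (w : InfinitePlace F) :
    H3.tc (P w) ≤ 2 * k.radius * H3.tc (Q w) ∧
      ‖w.embedding β - (H3.zc (P w) - H3.zc (Q w))‖ ≤ 2 * k.radius * H3.tc (P w) := by
  have h := tc_le_of_cdist_le (k.cdist_le hne w)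
  rw [glEmb_unip_smul, H3.tc_pt _ (H3.tc_pos _), H3.zc_pt _ (H3.tc_pos _), norm_sub_rev,
    show H3.zc (Q w) + w.embedding β - H3.zc (P w) =
      w.embedding β - (H3.zc (P w) - H3.zc (Q w)) by ring] at h
  exact h.2

/-- Cancellation: a sum of total weight zero over bounded translates is `O(1 / height)`. -/
theorem norm_sum_translates_le (k : PointKer F) {κ : Type*} [Fintype κ] {Φ : κ → ℂ}
    (hΦ : ∑ q, Φ q = 0) {x : κ → F} {J : ℝ} (hJ0 : 0 ≤ J)
    (hJ : ∀ q (w : InfinitePlace F), w (x q) ≤ J)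
    (a : F) {P Q : InfinitePlace F → H3} {T M : ℝ} (hT : 0 < T)
    (hTQ : ∀ w, T ≤ M * H3.tc (Q w)) :
    ‖∑ q, k.toFun P (fun w => glEmb F w (unip (x q + a)) • Q w) * Φ q‖ ≤
      (∑ q, ‖Φ q‖ * (k.lip * ∑ _w : InfinitePlace F, J * M)) / T := by
  set f : F → ℂ := fun β => k.toFun P fun w => glEmb F w (unip β) • Q w
  have h1 : ∑ q, f (x q + a) * Φ q = ∑ q, (f (x q + a) - f a) * Φ q := by
    simp only [sub_mul, Finset.sum_sub_distrib, ← Finset.mul_sum, hΦ, mul_zero, sub_zero]
  rw [h1, Finset.sum_div]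
  refine (norm_sum_le _ _).trans (Finset.sum_le_sum fun q _ => ?_)
  rw [norm_mul, mul_comm, mul_div_assoc]
  refine mul_le_mul_of_nonneg_left ((k.norm_sub_le _ _ _).trans ?_) (norm_nonneg _)
  rw [mul_div_assoc, Finset.sum_div]
  refine mul_le_mul_of_nonneg_left (Finset.sum_le_sum fun w _ => ?_) k.lip_nonneg
  rw [glEmb_unip_smul, glEmb_unip_smul, map_add, hdist_comm,
    show H3.zc (Q w) + (w.embedding (x q) + w.embedding a) =
      H3.zc (Q w) + w.embedding a + w.embedding (x q) by ring]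
  refine (hdist_translate _ _ (H3.tc_pos (Q w))).trans ?_
  rw [InfinitePlace.norm_embedding_eq, div_le_div_iff₀ (H3.tc_pos _) hT, mul_assoc]
  exact mul_le_mul (hJ q w) (hTQ w) hT.le hJ0

/-- The number of integers with `N d` in discs of radii at most linear in `T ≥ c₀` is
`O(T ^ (2 r))`. -/
theorem exists_near_card_bound {N : ℕ} (hN : 0 < N) {c₀ M J : ℝ} (hc₀ : 0 < c₀) (hM : 0 ≤ M)
    (hJ : 0 ≤ J) :
    ∃ C : ℝ, 0 ≤ C ∧ ∀ (z : InfinitePlace F → ℂ) (A : InfinitePlace F → ℝ) (T : ℝ), c₀ ≤ T →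
      (∀ w, A w ≤ M * T + J) →
        ((finite_integers_near F z A hN).toFinset.card : ℝ) ≤
          C * T ^ (2 * Fintype.card (InfinitePlace F) - 1 + 1) := by
  obtain ⟨C₀, hC₀, hcount⟩ := exists_count F
  set n := Module.finrank ℚ F
  set e := 2 * Fintype.card (InfinitePlace F) - 1 with he
  set C₂ := (1 + 2 * J) / c₀ + 2 * M with hC₂def
  have hC₂ : 0 ≤ C₂ := by positivity
  refine ⟨C₀ * C₂ ^ (e + 1), by positivity, fun z A T hT hA => ?_⟩
  have hT0 : 0 ≤ T := hc₀.le.trans hT
  have hdiam : ∀ x ∈ (finite_integers_near F z A hN).toFinset,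
      ∀ y ∈ (finite_integers_near F z A hN).toFinset, ∀ w : InfinitePlace F,
        w ((x : F) - y) ≤ 2 * (M * T + J) := by
    intro x hx y hy w
    have hx' := (Set.Finite.mem_toFinset _).mp hx w
    have hy' := (Set.Finite.mem_toFinset _).mp hy w
    have h1 : ‖w.embedding ((N : F) * (x : F)) - w.embedding ((N : F) * (y : F))‖ ≤
        2 * (M * T + J) := by
      have h2 := norm_sub_le_norm_sub_add_norm_sub (w.embedding ((N : F) * (x : F)))
        (z w) (w.embedding ((N : F) * (y : F)))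
      rw [norm_sub_rev (z w)] at h2
      linarith [hA w]
    rw [← map_sub, ← mul_sub, map_mul, norm_mul, map_natCast, Complex.norm_natCast,
      InfinitePlace.norm_embedding_eq] at h1
    exact le_trans (le_mul_of_one_le_left (apply_nonneg w _) (by exact_mod_cast hN)) h1
  have h0 : (0 : ℝ) ≤ 2 * (M * T + J) := by positivity
  refine (hcount _ h0 _ hdiam).trans ?_
  rw [mul_assoc]
  refine mul_le_mul_of_nonneg_left ?_ hC₀
  have h2 : 1 + 2 * (M * T + J) ≤ C₂ * T := by
    have h3 : 1 + 2 * J ≤ (1 + 2 * J) / c₀ * T := by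
      rw [div_mul_eq_mul_div, le_div_iff₀ hc₀]
      exact mul_le_mul_of_nonneg_left hT (by positivity)
    rw [hC₂def]
    nlinarith
  have h4 : n ≤ e + 1 := by
    have := finrank_le_two_mul_card F
    omega
  rw [← mul_pow]
  exact (pow_le_pow_left₀ (by positivity) h2 n).trans
    (pow_le_pow_right₀ (le_trans (by linarith) h2) h4)

/-- The sum over `F` of a function times a balanced line function, as a finite sum over
translations of sums over classes. -/
theorem tsum_mul_lineFn_eq {h : HeckeFn U} {r m : GLFin F} {L N : ℕ} (hL : 0 < L) {κ : Type*}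
    [Fintype κ] {j : κ → 𝓞 F} {Φ : κ → ℂ}
    (hbij : Function.Bijective (fun p : κ × 𝓞 F => j p.1 + ((L * N : ℕ) : 𝓞 F) * p.2))
    (hval : ∀ q d, lineFn h r m
      (finIncl F (((j q + ((L * N : ℕ) : 𝓞 F) * d : 𝓞 F) : F) / (L : F))) = Φ q)
    (hsup : ∀ β : F, lineFn h r m (finIncl F β) ≠ 0 → ∃ o : 𝓞 F, β = (o : F) / (L : F))
    {f : F → ℂ} {D : Finset (𝓞 F)}
    (hD : ∀ q (d : 𝓞 F), f ((j q : F) / L + (N : F) * (d : F)) ≠ 0 → d ∈ D) :
    ∑' β, f β * lineFn h r m (finIncl F β) =
      ∑ d ∈ D, ∑ q, f ((j q : F) / L + (N : F) * (d : F)) * Φ q := by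
  classical
  have hLF : (L : F) ≠ 0 := Nat.cast_ne_zero.mpr hL.ne'
  have hbase : ∀ q (d : 𝓞 F), ((j q + ((L * N : ℕ) : 𝓞 F) * d : 𝓞 F) : F) / (L : F) =
      (j q : F) / L + (N : F) * (d : F) := fun q d => by
    push_cast
    field_simp
  let g : κ × 𝓞 F → F := fun p => (j p.1 : F) / L + (N : F) * (p.2 : F)
  have hginj : Function.Injective g := fun p p' hp => by
    apply hbij.1
    apply NumberField.RingOfIntegers.coe_injective
    have := hp
    simp only [g, ← hbase] at this
    exact (div_left_inj' hLF).mp this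
  have hgval : ∀ p : κ × 𝓞 F, lineFn h r m (finIncl F (g p)) = Φ p.1 := fun p => by
    rw [← hval p.1 p.2, hbase]
  have hrange : (Function.support fun β => f β * lineFn h r m (finIncl F β)) ⊆ Set.range g := by
    intro β hβ
    obtain ⟨o, rfl⟩ := hsup β (right_ne_zero_of_mul hβ)
    obtain ⟨p, rfl⟩ := hbij.2 o
    exact ⟨p, (hbase p.1 p.2).symm⟩
  rw [← hginj.tsum_eq hrange,
    tsum_eq_sum (s := (Finset.univ : Finset κ) ×ˢ D) fun p hp => by
      by_contra hne
      exact hp (Finset.mem_product.mpr ⟨Finset.mem_univ _, hD p.1 p.2 (left_ne_zero_of_mul hne)⟩),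
    Finset.sum_product_right]
  simp only [hgval]
  simp only [g]

/-- The line lemma. -/
theorem exists_line_bound (k : PointKer F) (h : HeckeFn U) (hc : HasCuspCondition h)
    (r m : GLFin F) {c₀ B : ℝ} (hc₀ : 0 < c₀) (hB : 0 ≤ B) :
    ∃ C : ℝ, 0 ≤ C ∧ ∀ P Q : InfinitePlace F → H3, (∀ w, c₀ ≤ H3.tc (P w)) →
      (∀ w w', H3.tc (P w) ≤ B * H3.tc (P w')) →
        ‖∑' β : F, k.toFun P (fun w => glEmb F w (unip β) • Q w) *
            lineFn h r m (finIncl F β)‖ ≤ C * heightPow fun w => H3.tc (P w) := by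
  classical
  obtain ⟨L, N, κ, hκ, j, Φ, hL, hN, hΦ0, hbij, hval, hsup⟩ := exists_balanced h hc r m
  obtain ⟨w₀⟩ : Nonempty (InfinitePlace F) := inferInstance
  set R := k.radius
  have hR : 1 ≤ R := k.one_le_radius
  set J := ∑ q, ∑ w : InfinitePlace F, w ((j q : F) / (L : F)) with hJdef
  have hJ0 : 0 ≤ J := Finset.sum_nonneg fun q _ => Finset.sum_nonneg fun w _ => apply_nonneg w _
  have hJ : ∀ q (w : InfinitePlace F), w ((j q : F) / (L : F)) ≤ J := fun q w =>
    (Finset.single_le_sum (f := fun v => v ((j q : F) / (L : F))) (fun v _ => apply_nonneg v _)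
      (Finset.mem_univ w)).trans
      (Finset.single_le_sum (f := fun p => ∑ v : InfinitePlace F, v ((j p : F) / (L : F)))
        (fun p _ => Finset.sum_nonneg fun v _ => apply_nonneg v _) (Finset.mem_univ q))
  obtain ⟨C₀, hC₀, hcard⟩ :=
    exists_near_card_bound (F := F) hN hc₀ (M := 2 * R * B) (by positivity) hJ0
  set e := 2 * Fintype.card (InfinitePlace F) - 1 with he
  set C₁ := ∑ q, ‖Φ q‖ * (k.lip * ∑ _w : InfinitePlace F, J * (B * (2 * R))) with hC₁def
  have hC₁ : 0 ≤ C₁ := Finset.sum_nonneg fun q _ => mul_nonneg (norm_nonneg _)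
    (mul_nonneg k.lip_nonneg (Finset.sum_nonneg fun _ _ => by positivity))
  refine ⟨C₀ * C₁ * B ^ e, by positivity, fun P Q hP hbal => ?_⟩
  have htp : ∀ w, 0 < H3.tc (P w) := fun w => H3.tc_pos _
  have hH : 0 ≤ heightPow fun w => H3.tc (P w) := heightPow_nonneg fun w => (htp w).le
  set f : F → ℂ := fun β => k.toFun P fun w => glEmb F w (unip β) • Q w with hf
  by_cases hall : ∀ β, f β = 0
  · simp only [hf] at hall
    simp only [hall, zero_mul, tsum_zero, norm_zero]
    positivity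
  push Not at hall
  obtain ⟨β₀, hβ₀⟩ := hall
  set T := H3.tc (P w₀)
  have hTQ : ∀ w, T ≤ B * (2 * R) * H3.tc (Q w) := fun w => by
    rw [mul_assoc]
    exact (hbal w₀ w).trans (mul_le_mul_of_nonneg_left (of_line_term_ne_zero k hβ₀ w).1 hB)
  set z := fun w => H3.zc (P w) - H3.zc (Q w)
  set D := (finite_integers_near F z (fun w => 2 * R * H3.tc (P w) + J) hN).toFinset
  have hmem : ∀ q (d : 𝓞 F), f ((j q : F) / L + (N : F) * (d : F)) ≠ 0 → d ∈ D := fun q d hne => by
    refine (Set.Finite.mem_toFinset _).mpr fun w => ?_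
    have h1 := (of_line_term_ne_zero k hne w).2
    rw [map_add] at h1
    have h2 := hJ q w
    rw [← InfinitePlace.norm_embedding_eq] at h2
    have h3 := norm_sub_norm_le (w.embedding ((N : F) * (d : F)) - z w)
      (-(w.embedding ((j q : F) / (L : F))))
    rw [norm_neg, show w.embedding ((N : F) * (d : F)) - z w -
      -(w.embedding ((j q : F) / (L : F))) = w.embedding ((j q : F) / (L : F)) +
        w.embedding ((N : F) * (d : F)) - z w by ring] at h3
    linarith
  rw [tsum_mul_lineFn_eq (f := f) hL hbij hval hsup hmem]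
  calc ‖∑ d ∈ D, ∑ q, f ((j q : F) / L + (N : F) * (d : F)) * Φ q‖
      ≤ ∑ _d ∈ D, C₁ / T := (norm_sum_le _ _).trans (Finset.sum_le_sum fun d _ =>
        norm_sum_translates_le k hΦ0 hJ0 hJ _ (htp w₀) hTQ)
    _ = D.card * (C₁ / T) := by rw [Finset.sum_const, nsmul_eq_mul]
    _ ≤ C₀ * T ^ (e + 1) * (C₁ / T) := by
        refine mul_le_mul_of_nonneg_right (hcard z _ T (hP w₀) fun w => ?_)
          (div_nonneg hC₁ (htp w₀).le)
        have := mul_le_mul_of_nonneg_left (hbal w w₀) (by linarith : (0 : ℝ) ≤ 2 * R)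
        linarith
    _ = C₀ * C₁ * T ^ e := by
        have hT0 : T ≠ 0 := (htp w₀).ne'
        rw [pow_succ T e, mul_div_assoc', div_eq_iff hT0]
        ring
    _ ≤ C₀ * C₁ * (B ^ e * heightPow fun w => H3.tc (P w)) :=
        mul_le_mul_of_nonneg_left (pow_le_heightPow hB htp w₀ (hbal w₀)) (by positivity)
    _ = _ := by ring

end Fermat.Agent.LT.Kernel
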