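import Fermat.Agent.LT.Setup.Measure

/-!
# Integrals against a partition of unity, compared with integrals over a covering set

`lintegral_weight_le`: for a nonnegative invariant function the integral against a partition of
unity is at most the integral over any set meeting every orbit.
-/

set_option autoImplicit false

noncomputable section

open MeasureTheory
open scoped ENNReal NumberField
open NumberField (InfinitePlace)

namespace Fermat.Agent.LT.Kernel

variable {F : Type*} [Field F] [NumberField F]

theorem smul_pgl_eq_of_isAutomorphic {U : Level F} {β : Type*} {f : Y U → β}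
    (hf : ∀ (γ : GL (Fin 2) F) (y : Y U), f (γ • y) = f y) (c : PGLIndex F) (y : Y U) :
    f (c • y) = f y :=
  QuotientGroup.induction_on c fun γ => hf γ y

/-- An integral against a partition of unity is bounded by the integral over any set meeting every
orbit. -/
theorem lintegral_weight_le (U : Level F) (π : PartitionOfUnity U) (hπ : Measurable π.weight)
    {S : Set (Y U)} (hS : MeasurableSet S) (hcov : ∀ y : Y U, ∃ γ : GL (Fin 2) F, γ • y ∈ S)
    (A : Y U → ℝ≥0∞) (hA : Measurable A) (hinv : ∀ (γ : GL (Fin 2) F) (y : Y U), A (γ • y) = A y) :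
    ∫⁻ y, ENNReal.ofReal (π.weight y) * A y ∂(yVol U) ≤ ∫⁻ y in S, A y ∂(yVol U) := by
  classical
  have hmp := measurePreserving_pglSmul U
  set a : Y U → ℝ≥0∞ := fun y => ENNReal.ofReal (π.weight y) with ha
  set b : Y U → ℝ≥0∞ := S.indicator 1 with hb
  have ham : Measurable a := hπ.ennreal_ofReal
  have hbm : Measurable b := measurable_one.indicator hS
  have hone : ∀ y, 1 ≤ ∑' c : PGLIndex F, b (c • y) := fun y => by
    obtain ⟨γ, hγ⟩ := hcov y
    refine le_trans ?_ (ENNReal.le_tsum (QuotientGroup.mk γ : PGLIndex F))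
    rw [hb, pgl_mk_smul, Set.indicator_of_mem hγ]
    rfl
  calc ∫⁻ y, a y * A y ∂(yVol U)
      ≤ ∫⁻ y, ∑' c : PGLIndex F, a y * b (c • y) * A y ∂(yVol U) :=
        lintegral_mono fun y => by
          rw [ENNReal.tsum_mul_right, ENNReal.tsum_mul_left]
          exact mul_le_mul' (le_mul_of_one_le_right' (hone y)) le_rfl
    _ = ∑' c : PGLIndex F, ∫⁻ y, a y * b (c • y) * A y ∂(yVol U) :=
        lintegral_tsum fun c => ((ham.mul (hbm.comp (hmp c).measurable)).mul hA).aemeasurable
    _ = ∑' c : PGLIndex F, ∫⁻ y, a (c⁻¹ • y) * b y * A y ∂(yVol U) := by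
        refine tsum_congr fun c => ?_
        rw [← (hmp c⁻¹).lintegral_comp_emb (Lift.measurableEmbedding_smul' hmp c⁻¹)
          (fun y => a y * b (c • y) * A y)]
        refine lintegral_congr fun y => ?_
        rw [smul_inv_smul, smul_pgl_eq_of_isAutomorphic hinv]
    _ = ∫⁻ y, ∑' c : PGLIndex F, a (c⁻¹ • y) * b y * A y ∂(yVol U) :=
        (lintegral_tsum fun c =>
          (((ham.comp (hmp c⁻¹).measurable).mul hbm).mul hA).aemeasurable).symm
    _ = ∫⁻ y, b y * A y ∂(yVol U) := by
        refine lintegral_congr fun y => ?_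
        rw [ENNReal.tsum_mul_right, ENNReal.tsum_mul_right,
          show (∑' c : PGLIndex F, a (c⁻¹ • y)) = ∑' c : PGLIndex F, a (c • y) from
            (Equiv.inv (PGLIndex F)).tsum_eq (fun c => a (c • y)),
          π.isPartition.tsum_ofReal y, one_mul]
    _ = ∫⁻ y in S, A y ∂(yVol U) := by
        rw [← lintegral_indicator hS]
        refine lintegral_congr fun y => ?_
        by_cases hy : y ∈ S <;> simp [hb, hy]

end Fermat.Agent.LT.Kernel
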