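import Fermat.Agent.LT.Kernel.Bound
import Fermat.Agent.LT.Kernel.Measure
import Fermat.Agent.LT.Reduction.Public

/-!
# The diagonal and the twisted diagonal of a cuspidal kernel are integrable

An invariant function which grows slower than the square of the height is integrable against a
partition of unity; by the bound on Siegel sets this applies to `x ↦ K(x, f x)` for every
equivariant measurable `f`.
-/

set_option autoImplicit false

noncomputable section

open MeasureTheory
open scoped NumberField ENNReal
open NumberField (InfinitePlace)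

namespace Fermat.Agent.LT.Kernel

variable {F : Type*} [Field F] [NumberField F] [NumberField.IsTotallyComplex F] {U : Level F}

/-- An invariant function of growth below the square of the height is integrable against any
partition of unity. -/
theorem integrable_weight_smul (w : PartitionOfUnity U) (hw : Measurable w.weight)
    {A : Y U → ℂ} (hA : Measurable A) (hinv : IsAutomorphic A) {α : ℝ} (hα : α < 2)
    (hbound : ∀ (R : Finset (GLFin F)) (A' B b : ℝ), 0 < b → ∃ C : ℝ,
      ∀ y ∈ Reduction.siegel U R A' B b, ‖A y‖ ≤ C * Reduction.height y ^ α) :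
    Integrable (fun y => w.weight y • A y) (yVol U) := by
  refine ⟨(hw.smul hA).aestronglyMeasurable, ?_⟩
  obtain ⟨R, A', B, b, hb, hcov⟩ := Reduction.exists_siegel U
  obtain ⟨C, hC⟩ := hbound R A' B b hb
  have hS := Reduction.measurableSet_siegel (U := U) R A' B b
  have hint := (Reduction.integrableOn_siegel_height (U := U) hα R A' B hb).const_mul C
  rw [hasFiniteIntegral_iff_enorm]
  calc ∫⁻ y, ‖w.weight y • A y‖ₑ ∂yVol U
      = ∫⁻ y, ENNReal.ofReal (w.weight y) * ‖A y‖ₑ ∂yVol U := by
        refine lintegral_congr fun y => ?_
        rw [enorm_smul, Real.enorm_of_nonneg (w.nonneg y)]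
    _ ≤ ∫⁻ y in Reduction.siegel U R A' B b, ‖A y‖ₑ ∂yVol U :=
        lintegral_weight_le U w hw hS hcov (fun y => ‖A y‖ₑ) hA.enorm fun γ y => by rw [hinv γ y]
    _ ≤ ∫⁻ y in Reduction.siegel U R A' B b, ‖C * Reduction.height y ^ α‖ₑ ∂yVol U := by
        refine setLIntegral_mono' hS fun y hy => ?_
        rw [← ofReal_norm, ← ofReal_norm]
        exact ENNReal.ofReal_le_ofReal ((hC y hy).trans (le_abs_self _))
    _ < ⊤ := hasFiniteIntegral_iff_enorm.mp hint.2

omit [NumberField.IsTotallyComplex F] in
/-- The kernel along a map compatible with the action is automorphic. -/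
theorem isAutomorphic_diag (k : PointKer F) (h : HeckeFn U) {f : Y U → Y U}
    (hfe : ∀ (γ : GL (Fin 2) F) (y : Y U), ∃ γ' : GL (Fin 2) F, f (γ • y) = γ' • f y) :
    IsAutomorphic fun x => autKer k h x (f x) := fun γ y => by
  obtain ⟨γ', hγ'⟩ := hfe γ y
  simp only [hγ', autKer_smul_left, autKer_smul_right]

omit [NumberField.IsTotallyComplex F] in
/-- The kernel along a measurable map is measurable. -/
theorem measurable_diag (k : PointKer F) (h : HeckeFn U) {f : Y U → Y U} (hf : Measurable f) :
    Measurable fun x => autKer k h x (f x) :=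
  (measurable_autKer k h).comp (measurable_id.prodMk hf)

/-- The twisted diagonal of a cuspidal kernel is integrable. -/
theorem integrable_twisted_diag (k : PointKer F) (h : HeckeFn U) (hc : HasCuspCondition h)
    (w : PartitionOfUnity U) (hw : Measurable w.weight) {f : Y U → Y U} (hf : Measurable f)
    (hfe : ∀ (γ : GL (Fin 2) F) (y : Y U), ∃ γ' : GL (Fin 2) F, f (γ • y) = γ' • f y) :
    Integrable (fun x => w.weight x • autKer k h x (f x)) (yVol U) :=
  integrable_weight_smul w hw (measurable_diag k h hf) (isAutomorphic_diag k h hfe)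
    (gainExp_lt_two F) fun R A B _ hb =>
      (exists_bound_siegel k h hc R A B hb).imp fun _ hC x hx => hC.2 x hx (f x)

end Fermat.Agent.LT.Kernel
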