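import Fermat.Agent.LT.Kernel.Compose
import Fermat.Agent.LT.Operators.Kernel

/-!
# The twisted trace as the integral of the twisted diagonal of the composed kernel

`hsTrace_autKer`: the trace of the product of two automorphic kernel operators, the first one
twisted by a measure-preserving map `s`, is the integral of `y ↦ K(s y, y)` for the composed
kernel `K`.
-/

set_option autoImplicit false

noncomputable section

open MeasureTheory
open scoped ENNReal
open NumberField (InfinitePlace)

namespace Fermat.Agent.LT.Kernel

open Operators Fermat.Agent.L2Kernel

variable {F : Type*} [Field F] [NumberField F] {U : Level F}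

/-- An integral against the weighted measure is an integral against the weight. -/
theorem integral_weighted (w : PartitionOfUnity U) (hw : Measurable w.weight) (A : Y U → ℂ) :
    ∫ y, A y ∂(yVol U).withDensity (fun y => ENNReal.ofReal (w.weight y)) = quotIntegral w A := by
  rw [integral_withDensity_eq_integral_toReal_smul hw.ennreal_ofReal
    (Filter.Eventually.of_forall fun _ => ENNReal.ofReal_lt_top)]
  simp only [ENNReal.toReal_ofReal (w.nonneg _)]
  rfl

/-- The twisted trace of a product of two automorphic kernel operators. -/
theorem hsTrace_autKer (w : PartitionOfUnity U) (hw : Measurable w.weight) (k l : PointKer F)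
    (f g : HeckeFn U) {s : Y U → Y U}
    (hs : MeasurePreserving s ((yVol U).withDensity fun y => ENNReal.ofReal (w.weight y))
      ((yVol U).withDensity fun y => ENNReal.ofReal (w.weight y)))
    (h₁ : IsKernel ((yVol U).withDensity fun y => ENNReal.ofReal (w.weight y))
      ((yVol U).withDensity fun y => ENNReal.ofReal (w.weight y))
      fun p : Y U × Y U => autKer k f p.1 p.2)
    (h₂ : IsKernel ((yVol U).withDensity fun y => ENNReal.ofReal (w.weight y))
      ((yVol U).withDensity fun y => ENNReal.ofReal (w.weight y))
      fun p : Y U × Y U => autKer l g p.1 p.2)
    {ι : Type*}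
    (b : HilbertBasis ι ℂ (Lp ℂ 2 ((yVol U).withDensity fun y => ENNReal.ofReal (w.weight y)))) :
    hsTrace b (compCLM hs ∘L kernelCLM h₁) (kernelCLM h₂) =
      quotIntegral w fun y => autKer (k.comp l) (f * g) (s y) y := by
  rw [hsTrace_twist h₁ h₂ hs b]
  refine (integral_prod_symm _ (MemLp.integrable_mul
    ((h₁.twist hs).comp_measurePreserving Measure.measurePreserving_swap) h₂)).trans ?_
  rw [← integral_weighted w hw]
  refine integral_congr_ae (Filter.Eventually.of_forall fun y => ?_)
  exact (integral_weighted w hw _).trans (integral_autKer_mul w hw k l f g (s y) y)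

end Fermat.Agent.LT.Kernel
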