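import Fermat.Agent.LT.Kernel.AutSum
import Fermat.Agent.LT.Kernel.Measure
import Fermat.Agent.LT.HeckeAlg.Basic

/-!
# Composition of automorphic kernels

`∫ x, w x • K_{k,f}(z, x) K_{l,g}(x, y) = K_{k∘l, f*g}(z, y)` at every pair of points.
-/

set_option autoImplicit false

noncomputable section

open MeasureTheory Matrix Topology Filter
open scoped NumberField ENNReal
open NumberField (InfinitePlace)

namespace Fermat.Agent.LT.Kernel

variable {F : Type*} [Field F] [NumberField F] {U : Level F}

/-- The triangle inequality in multiplicative form. -/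
theorem cdist_le_two_mul (P R Q : H3) :
    H3.cdist P Q ≤ 2 * H3.cdist P R * H3.cdist R Q := by
  obtain ⟨g, hg⟩ := H3.exists_smul_eq R H3.origin
  rw [← H3.cdist_smul g P Q, ← H3.cdist_smul g P R, ← H3.cdist_smul g R Q, hg]
  generalize g • P = A
  generalize g • Q = B
  have h0 : H3.origin.mat = 1 := rfl
  rw [cdist_entries A B, cdist_entries A H3.origin, cdist_entries H3.origin B]
  simp only [h0, Matrix.one_apply_eq, Matrix.one_apply_ne (show (0 : Fin 2) ≠ 1 by decide),
    Complex.one_re, Complex.zero_re, Complex.zero_im]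
  have hA := det_entries A
  have hB := det_entries B
  rw [Complex.normSq_apply] at hA hB
  have a0 := mat_zero_zero_pos A
  have a1 := H3.mat_one_one_pos A
  have b0 := mat_zero_zero_pos B
  have b1 := H3.mat_one_one_pos B
  generalize (A.mat 0 0).re = p₀ at *
  generalize (A.mat 1 1).re = p₁ at *
  generalize (A.mat 0 1).re = xr at *
  generalize (A.mat 0 1).im = xi at *
  generalize (B.mat 0 0).re = q₀ at *
  generalize (B.mat 1 1).re = q₁ at *
  generalize (B.mat 0 1).re = yr at *
  generalize (B.mat 0 1).im = yi at *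
  have hS : |xr * yr + xi * yi| ≤ (p₀ * q₀ + p₁ * q₁) / 2 := by
    refine abs_le_of_sq_le_sq ?_ (by positivity)
    nlinarith [sq_nonneg (xr * yi - xi * yr), sq_nonneg (p₀ * q₀ - p₁ * q₁), mul_pos a0 a1,
      mul_pos b0 b1]
  nlinarith [(abs_le.mp hS).1]

instance infVol_isFiniteMeasureOnCompacts : IsFiniteMeasureOnCompacts (infVol F) := by
  constructor
  intro C hC
  refine lt_of_le_of_lt (measure_mono (Set.subset_pi_eval_image Set.univ C)) ?_
  rw [infVol, Measure.pi_pi]
  exact ENNReal.prod_lt_top fun w _ => (hC.image (continuous_apply w)).measure_lt_top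

omit [NumberField F] in
/-- The points near a compact set of points. -/
theorem exists_compact_near {N : Set (InfinitePlace F → H3)} (hN : IsCompact N) (R : ℝ) :
    ∃ C : Set (InfinitePlace F → H3), IsCompact C ∧
      ∀ P ∈ N, ∀ Q, (∀ w, H3.cdist (P w) (Q w) ≤ R) → Q ∈ C := by
  choose C hC hCmem using fun w =>
    H3.exists_compact_cdist_le (hN.image (continuous_apply w)) R
  exact ⟨Set.univ.pi C, isCompact_univ_pi hC,
    fun P hP Q hQ w _ => hCmem w (P w) ⟨P, hP, rfl⟩ (Q w) (hQ w)⟩

namespace PointKer

theorem integrable_right (k : PointKer F) (P : InfinitePlace F → H3) :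
    Integrable (k.toFun P) (infVol F) := by
  obtain ⟨C, hC, hmem⟩ := exists_compact_near (isCompact_singleton (x := P)) k.radius
  refine (k.continuous_right P).integrable_of_hasCompactSupport (HasCompactSupport.intro hC ?_)
  exact fun Q hQ => by_contra fun h => hQ (hmem P rfl Q fun w => k.cdist_le h w)

/-- A bundled translation. -/
def translateEquiv (g : InfinitePlace F → GL (Fin 2) ℂ) :
    (InfinitePlace F → H3) ≃ᵐ (InfinitePlace F → H3) :=
  MeasurableEquiv.piCongrRight fun w => MeasurableEquiv.smul (g w)

theorem measurePreserving_translate (g : InfinitePlace F → GL (Fin 2) ℂ) :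
    MeasurePreserving (fun P : InfinitePlace F → H3 => g • P) (infVol F) (infVol F) :=
  measurePreserving_pi _ _ fun w => H3.measurePreserving_smul (g w)

theorem integral_translate {E : Type*} [NormedAddCommGroup E] [NormedSpace ℝ E]
    (g : InfinitePlace F → GL (Fin 2) ℂ) (φ : (InfinitePlace F → H3) → E) :
    ∫ P, φ (g • P) ∂infVol F = ∫ P, φ P ∂infVol F :=
  (measurePreserving_translate g).integral_comp (translateEquiv g).measurableEmbedding φ

/-- The mass of a test kernel. -/
def mass (k : PointKer F) : ℝ := ∫ Q, ‖k.toFun (fun _ => H3.origin) Q‖ ∂infVol F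

theorem integral_norm_eq_mass (k : PointKer F) (P : InfinitePlace F → H3) :
    ∫ Q, ‖k.toFun P Q‖ ∂infVol F = k.mass := by
  choose g hg using fun w => H3.exists_smul_eq (P w) H3.origin
  rw [mass, ← show g • P = fun _ => H3.origin from funext hg,
    ← integral_translate g fun Q => ‖k.toFun (g • P) Q‖]
  simp only [k.smul']

theorem continuous_comp_pair (k l : PointKer F) :
    Continuous fun p : (InfinitePlace F → H3) × (InfinitePlace F → H3) =>
      ∫ R, k.toFun p.1 R * l.toFun R p.2 ∂infVol F := by
  refine continuous_iff_continuousAt.mpr fun p => ?_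
  obtain ⟨N, hN, hNp⟩ := exists_compact_mem_nhds p.1
  obtain ⟨C, hC, hmem⟩ := exists_compact_near hN k.radius
  have hf : Continuous fun t : ((InfinitePlace F → H3) × (InfinitePlace F → H3)) ×
      (InfinitePlace F → H3) => k.toFun t.1.1 t.2 * l.toFun t.2 t.1.2 := by
    have h1 : Continuous fun t : ((InfinitePlace F → H3) × (InfinitePlace F → H3)) ×
        (InfinitePlace F → H3) => k.toFun t.1.1 t.2 :=
      k.continuous'.comp ((continuous_fst.comp continuous_fst).prodMk continuous_snd)
    have h2 : Continuous fun t : ((InfinitePlace F → H3) × (InfinitePlace F → H3)) ×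
        (InfinitePlace F → H3) => l.toFun t.2 t.1.2 :=
      l.continuous'.comp (continuous_snd.prodMk (continuous_snd.comp continuous_fst))
    exact h1.mul h2
  have hint : Continuous fun q : (InfinitePlace F → H3) × (InfinitePlace F → H3) =>
      ∫ R in C, k.toFun q.1 R * l.toFun R q.2 ∂infVol F :=
    continuous_parametric_integral_of_continuous
      (f := fun (q : (InfinitePlace F → H3) × (InfinitePlace F → H3)) R =>
        k.toFun q.1 R * l.toFun R q.2) hf hC
  refine hint.continuousAt.congr ?_
  filter_upwards [prod_mem_nhds hNp univ_mem] with q hq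
  refine setIntegral_eq_integral_of_forall_compl_eq_zero fun R hR => ?_
  rw [mul_eq_zero]
  exact Or.inl (by_contra fun h => hR (hmem q.1 hq.1 R fun w => k.cdist_le h w))

/-- Composition of test kernels. -/
def comp (k l : PointKer F) : PointKer F where
  toFun P Q := ∫ R, k.toFun P R * l.toFun R Q ∂infVol F
  smul' g P Q := by
    rw [← integral_translate g fun R => k.toFun (g • P) R * l.toFun R (g • Q)]
    simp only [k.smul', l.smul']
  continuous' := continuous_comp_pair k l
  support' := by
    refine ⟨2 * k.radius * l.radius, ?_, fun P Q h w => ?_⟩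
    · nlinarith [k.one_le_radius, l.one_le_radius,
        mul_le_mul k.one_le_radius l.one_le_radius zero_le_one k.radius_pos.le]
    by_contra hlt
    refine h (integral_eq_zero_of_ae (Eventually.of_forall fun R => ?_))
    by_contra hne
    obtain ⟨h1, h2⟩ := mul_ne_zero_iff.mp hne
    refine hlt ((cdist_le_two_mul (P w) (R w) (Q w)).trans ?_)
    exact mul_le_mul (mul_le_mul_of_nonneg_left (k.cdist_le h1 w) zero_le_two) (l.cdist_le h2 w)
      (zero_le_one.trans (H3.one_le_cdist _ _)) (mul_nonneg zero_le_two k.radius_pos.le)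
  lipschitz' := by
    refine ⟨k.mass * l.lip, mul_nonneg (integral_nonneg fun _ => norm_nonneg _) l.lip_nonneg,
      fun P Q Q' => ?_⟩
    have hint : ∀ Q : InfinitePlace F → H3,
        Integrable (fun R => k.toFun P R * l.toFun R Q) (infVol F) := fun Q => by
      have hc : Continuous fun R => l.toFun R Q :=
        l.continuous'.comp (Continuous.prodMk_left Q)
      exact (k.integrable_right P).mul_bdd (c := l.bound) hc.aestronglyMeasurable
        (Eventually.of_forall fun R => l.norm_le R Q)
    rw [← integral_sub (hint Q) (hint Q')]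
    calc ‖∫ R, (k.toFun P R * l.toFun R Q - k.toFun P R * l.toFun R Q') ∂infVol F‖
        ≤ ∫ R, ‖k.toFun P R‖ * (l.lip * ∑ w, hdist (Q w) (Q' w)) ∂infVol F := by
          refine norm_integral_le_of_norm_le ((k.integrable_right P).norm.mul_const _)
            (Eventually.of_forall fun R => ?_)
          rw [← mul_sub, norm_mul]
          exact mul_le_mul_of_nonneg_left (l.norm_sub_le R Q Q') (norm_nonneg _)
      _ = k.mass * l.lip * ∑ w, hdist (Q w) (Q' w) := by
          rw [integral_mul_const, integral_norm_eq_mass, mul_assoc]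

/-- The value of a composed kernel. -/
theorem comp_apply (k l : PointKer F) (P Q : InfinitePlace F → H3) :
    (k.comp l).toFun P Q = ∫ R, k.toFun P R * l.toFun R Q ∂infVol F := rfl

end PointKer

/-- The composed pair kernel. -/
theorem integral_pairKer_mul (k l : PointKer F) (f g : HeckeFn U) (z y : Y U) :
    ∫ x, pairKer k f z x * pairKer l g x y ∂yVol U = pairKer (k.comp l) (f * g) z y := by
  classical
  have e : (fun x : Y U => pairKer k f z x * pairKer l g x y) = fun x =>
      (k.toFun z.1 x.1 * l.toFun x.1 y.1) * (f.kernel z.2 x.2 * g.kernel x.2 y.2) :=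
    funext fun x => by simp only [pairKer]; ring
  have hb : Integrable (fun d => f.kernel z.2 d * g.kernel d y.2)
      (Measure.count : Measure (GLFin F ⧸ U.toSubgroup)) :=
    integrable_count_iff.mpr (summable_of_hasFiniteSupport
      ((finite_kernel_support f z.2).subset fun d hd =>
        left_ne_zero_of_mul (norm_ne_zero_iff.mp hd)))
  have hsum : Summable fun d => f.kernel z.2 d * g.kernel d y.2 :=
    summable_of_hasFiniteSupport
      ((finite_kernel_support f z.2).subset fun d hd => left_ne_zero_of_mul hd)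
  rw [e, yVol, integral_prod_mul (fun P => k.toFun z.1 P * l.toFun P y.1)
    (fun d => f.kernel z.2 d * g.kernel d y.2), integral_countable hb,
    pairKer, PointKer.comp_apply, HeckeFn.kernel_mul, HeckeFn.act]
  congr 1
  simp only [measureReal_def, Measure.count_singleton, ENNReal.toReal_one, one_smul]
  exact tsum_eq_finsum ((finite_kernel_support f z.2).subset fun d hd => left_ne_zero_of_mul hd)

/-- Composition of automorphic kernels. -/
theorem integral_autKer_mul (w : PartitionOfUnity U) (hw : Measurable w.weight) (k l : PointKer F)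
    (f g : HeckeFn U) (z y : Y U) :
    ∫ x, w.weight x • (autKer k f z x * autKer l g x y) ∂yVol U =
      autKer (k.comp l) (f * g) z y := by
  classical
  set Ψ : Y U → ℂ := fun x => pairKer k f z x * autKer l g x y with hΨ
  obtain ⟨C, hC, hmem⟩ := exists_compact_near (isCompact_singleton (x := z.1)) k.radius
  set S : Set (Y U) := C ×ˢ {d | f.kernel z.2 d ≠ 0} with hS
  have hSc : IsCompact S := hC.prod (finite_kernel_support f z.2).isCompact
  have hzero : ∀ x ∉ S, pairKer k f z x = 0 := fun x hx => by
    by_contra h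
    obtain ⟨h1, h2⟩ := mul_ne_zero_iff.mp h
    exact hx ⟨hmem z.1 rfl x.1 fun v => k.cdist_le h1 v, h2⟩
  have hpc : Continuous (pairKer k f z) := (continuous_pairKer k f).comp (Continuous.prodMk_right z)
  have hsc : Continuous fun x => autKer l g x y :=
    (continuous_autKer l g).comp (Continuous.prodMk_left y)
  have hfin : IsFiniteMeasureOnCompacts (yVol U) := by
    constructor
    intro T hT
    refine lt_of_le_of_lt (measure_mono Set.subset_fst_image_prod_snd_image) ?_
    rw [yVol, Measure.prod_prod]
    exact ENNReal.mul_lt_top (hT.image continuous_fst).measure_lt_top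
      (Measure.count_apply_lt_top.mpr (hT.image continuous_snd).finite_of_discrete)
  have hΨi : Integrable Ψ (yVol U) := (hpc.mul hsc).integrable_of_hasCompactSupport
    (HasCompactSupport.intro hSc fun x hx => by simp [hzero x hx])
  -- unfolding
  have hmp := measurePreserving_pglSmul U
  have hpt : ∀ x, w.weight x • (autKer k f z x * autKer l g x y) =
      ∑' c : PGLIndex F, w.weight x • Ψ (c • x) := fun x => by
    rw [tsum_const_smul'']
    congr 1
    simp only [hΨ, autKer_pgl_smul_left]
    exact ((hasSum_autKer k f z x).mul_right _).tsum_eq.symm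
  have hA : ∀ c : PGLIndex F,
      AEStronglyMeasurable (fun x => w.weight (c⁻¹ • x) • Ψ x) (yVol U) := fun c =>
    (hw.comp (hmp c⁻¹).measurable).aestronglyMeasurable.smul hΨi.1
  have hfin' : ∑' c : PGLIndex F, ∫⁻ x, ‖w.weight (c⁻¹ • x) • Ψ x‖ₑ ∂yVol U ≠ ⊤ := by
    rw [← lintegral_tsum fun c => (hA c).enorm]
    refine ne_top_of_le_ne_top hΨi.2.ne (le_of_eq (lintegral_congr fun x => ?_))
    simp only [enorm_smul, Real.enorm_of_nonneg (w.nonneg _)]
    rw [ENNReal.tsum_mul_right,
      show (∑' c : PGLIndex F, ENNReal.ofReal (w.weight (c⁻¹ • x))) =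
        ∑' c : PGLIndex F, ENNReal.ofReal (w.weight (c • x)) from
          (Equiv.inv (PGLIndex F)).tsum_eq fun c => ENNReal.ofReal (w.weight (c • x)),
      w.isPartition.tsum_ofReal, one_mul]
  have hB : ∀ c : PGLIndex F,
      AEStronglyMeasurable (fun x => w.weight x • Ψ (c • x)) (yVol U) := fun c =>
    hw.aestronglyMeasurable.smul (hΨi.1.comp_measurePreserving (hmp c))
  have htr : ∀ c : PGLIndex F, ∫ x, w.weight x • Ψ (c • x) ∂yVol U =
      ∫ x, w.weight (c⁻¹ • x) • Ψ x ∂yVol U := fun c => by
    rw [← (hmp c).integral_comp (Lift.measurableEmbedding_smul' hmp c)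
      (fun x => w.weight (c⁻¹ • x) • Ψ x)]
    simp only [inv_smul_smul]
  have htr' : ∀ c : PGLIndex F, ∫⁻ x, ‖w.weight x • Ψ (c • x)‖ₑ ∂yVol U =
      ∫⁻ x, ‖w.weight (c⁻¹ • x) • Ψ x‖ₑ ∂yVol U := fun c => by
    rw [← (hmp c).lintegral_comp_emb (Lift.measurableEmbedding_smul' hmp c)
      (fun x => ‖w.weight (c⁻¹ • x) • Ψ x‖ₑ)]
    simp only [inv_smul_smul]
  rw [integral_congr_ae (Eventually.of_forall hpt),
    integral_tsum hB (by simpa only [htr'] using hfin'), tsum_congr htr, ← integral_tsum hA hfin']
  have hone : ∀ x, ∑' c : PGLIndex F, w.weight (c⁻¹ • x) • Ψ x = Ψ x := fun x => by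
    have h := ((Equiv.inv (PGLIndex F)).hasSum_iff.mpr (w.hasSum_pgl x)).smul_const (Ψ x)
    simpa [Function.comp_def] using h.tsum_eq
  simp only [hone]
  -- the finitely many terms
  have hbi : ∀ d, ∃ Γ : Finset (PGLIndex F), ∀ P ∈ C, ∀ c ∉ Γ,
      pairKer l g ((P, d) : Y U) (c • y) = 0 := fun d => by
    obtain ⟨Γ, hΓ⟩ := exists_finset_support l g hC (isCompact_singleton (x := y.1)) d y.2
    exact ⟨Γ, fun P hP c hc => hΓ P hP y.1 rfl c hc⟩
  choose Γf hΓf using hbi
  set Γ := (finite_kernel_support f z.2).toFinset.biUnion Γf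
  have hsupp : ∀ c ∉ Γ, ∀ x, pairKer k f z x * pairKer l g x (c • y) = 0 := fun c hc x => by
    by_contra hne
    have hxS : x ∈ S := by_contra fun h => left_ne_zero_of_mul hne (hzero x h)
    exact right_ne_zero_of_mul hne (hΓf x.2 x.1 hxS.1 c fun hcm =>
      hc (Finset.mem_biUnion.mpr ⟨x.2, (Set.Finite.mem_toFinset _).mpr hxS.2, hcm⟩))
  have hpoint : ∀ x, Ψ x = ∑ c ∈ Γ, pairKer k f z x * pairKer l g x (c • y) := fun x => by
    simp only [hΨ, autKer, ← tsum_mul_left]
    exact tsum_eq_sum fun c hc => hsupp c hc x
  have hpi : ∀ c : PGLIndex F,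
      Integrable (fun x => pairKer k f z x * pairKer l g x (c • y)) (yVol U) := fun c =>
    (hpc.mul ((continuous_pairKer l g).comp
      (Continuous.prodMk_left (c • y)))).integrable_of_hasCompactSupport
      (HasCompactSupport.intro hSc fun x hx => by simp [hzero x hx])
  simp only [hpoint]
  rw [integral_finsetSum _ fun c _ => hpi c]
  simp only [integral_pairKer_mul]
  refine (tsum_eq_sum fun c hc => ?_).symm
  rw [← integral_pairKer_mul]
  simp [hsupp c hc]

end Fermat.Agent.LT.Kernel
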