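import Fermat.Agent.LT.Kernel.AutSum
import Fermat.Agent.LT.Kernel.LineSum
import Fermat.Agent.LT.Reduction.Siegel

/-!
# The terms of the kernel high in the cusp are upper triangular

An element moving a point high in the cusp to another is upper triangular (`exists_height_bound`);
it is then `n(β) diag(α, 1)` up to scalars, scales the heights by `‖α‖`, and has only finitely
many possible `α` (`exists_diag_parts`).
-/

set_option autoImplicit false

noncomputable section

open Matrix
open scoped NumberField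
open NumberField (InfinitePlace)

namespace Fermat.Agent.LT.Kernel

variable {F : Type*} [Field F] [NumberField F] {U : Level F}

/-- An element that is not upper triangular, moving one coset to another, keeps the heights
bounded. -/
theorem exists_height_bound (U : Level F) (r r' : GLFin F) {b : ℝ} (hb : 0 < b) :
    ∃ T : ℝ, 0 ≤ T ∧ ∀ γ : GL (Fin 2) F,
      (QuotientGroup.mk (glIncl F γ * r) : GLFin F ⧸ U.toSubgroup) = QuotientGroup.mk r' →
      γ.val 1 0 ≠ 0 → ∀ Q : InfinitePlace F → H3,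
        (∀ w, b ≤ H3.tc (Q w)) → (∀ w, b ≤ H3.tc (glEmb F w γ • Q w)) → ∀ w, H3.tc (Q w) ≤ T := by
  obtain ⟨M, hM, hden⟩ := exists_adjVec_den U r r'
  obtain ⟨δ, hδ, hlow⟩ := exists_lower_bound (F := F) hM (b * b)⁻¹
  refine ⟨(δ * b)⁻¹, by positivity, fun γ hγ h10 Q hQ hγQ w => ?_⟩
  set x : F := adjEntry γ ((1, 0), (1, 0))
  have key : ∀ v : InfinitePlace F, v x * (H3.tc (Q v) * H3.tc (glEmb F v γ • Q v)) ≤ 1 := by
    intro v
    have h := Reduction.tc_smul (glEmb F v γ) (Q v)
    have hrow := Reduction.rowForm_bottom_pos (glEmb F v γ) (Q v)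
    rw [eq_div_iff hrow.ne'] at h
    have h2 := Reduction.normSq_mul_tc_le (Q v) ((glEmb F v γ).val 1 0) ((glEmb F v γ).val 1 1)
    rw [Complex.normSq_eq_norm_sq] at h2
    rw [glEmb_adjEntry, div_mul_eq_mul_div, div_le_one (H3.norm_det_pos _), ← h]
    calc ‖(glEmb F v γ).val 1 0‖ * ‖(glEmb F v γ).val 1 0‖ *
          (H3.tc (Q v) * H3.tc (glEmb F v γ • Q v))
        = (‖(glEmb F v γ).val 1 0‖ ^ 2 * H3.tc (Q v)) * H3.tc (glEmb F v γ • Q v) := by ring
      _ ≤ _ := by
        rw [mul_comm _ (H3.tc (glEmb F v γ • Q v))]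
        exact mul_le_mul_of_nonneg_left h2 (H3.tc_pos _).le
  have hup : ∀ v : InfinitePlace F, v x ≤ (b * b)⁻¹ := fun v => by
    have h1 : v x * (b * b) ≤ 1 := le_trans
      (mul_le_mul_of_nonneg_left (mul_le_mul (hQ v) (hγQ v) hb.le (H3.tc_pos _).le)
        (apply_nonneg v x)) (key v)
    rwa [← le_div_iff₀ (by positivity), one_div] at h1
  have hx : x ≠ 0 := div_ne_zero (mul_ne_zero h10 h10) (det_val_ne_zero γ)
  have h3 : δ * (H3.tc (Q w) * b) ≤ 1 :=
    le_trans (mul_le_mul (hlow x hx (hden γ hγ _) hup w)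
      (mul_le_mul_of_nonneg_left (hγQ w) (H3.tc_pos _).le) (mul_nonneg (H3.tc_pos _).le hb.le)
      (apply_nonneg w x)) (key w)
  rw [← one_div, le_div_iff₀ (by positivity)]
  linarith

omit [NumberField F] in
/-- The matrix of `diag(a, 1)`. -/
theorem dia_val {R : Type*} [CommRing R] (a : Rˣ) : (dia a).val = !![(a : R), 0; 0, 1] := rfl

omit [NumberField F] in
/-- An upper triangular element is `n(β) diag(α, 1)` up to scalars. -/
theorem exists_upper_form {γ : GL (Fin 2) F} (h : γ.val 1 0 = 0) :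
    ∃ (α : Fˣ) (β : F),
      (QuotientGroup.mk γ : PGLIndex F) = QuotientGroup.mk (unip β * dia α) ∧
        (α : F) = adjEntry γ ((0, 0), (0, 0)) := by
  have hd : γ.val 0 0 * γ.val 1 1 ≠ 0 := by
    have := det_val_ne_zero γ
    rwa [Matrix.det_fin_two, h, mul_zero, sub_zero] at this
  have h00 := left_ne_zero_of_mul hd
  have h11 := right_ne_zero_of_mul hd
  refine ⟨Units.mk0 _ (div_ne_zero h00 h11), γ.val 0 1 / γ.val 1 1,
    QuotientGroup.eq.mpr ⟨Units.mk0 _ (inv_ne_zero h11), ?_⟩, ?_⟩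
  · rw [eq_inv_mul_iff_mul_eq, ← scalarGlobal_comm]
    ext i j
    rw [scalarGlobal_mul_val, Units.val_mul, dia_val, unip_val]
    fin_cases i <;> fin_cases j <;> simp [Matrix.mul_apply, Fin.sum_univ_two, h] <;> field_simp
  · rw [Units.val_mk0, adjEntry, Matrix.det_fin_two, h]
    field_simp
    ring

omit [NumberField F] in
/-- `(α, β) ↦ n(β) diag(α, 1)` is injective into `PGL₂(F)`. -/
theorem injective_upperForm :
    Function.Injective fun p : Fˣ × F =>
      (QuotientGroup.mk (unip p.2 * dia p.1) : PGLIndex F) := by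
  rintro ⟨α, β⟩ ⟨α', β'⟩ h
  obtain ⟨a, ha⟩ := QuotientGroup.eq.mp h
  rw [eq_inv_mul_iff_mul_eq, ← scalarGlobal_comm] at ha
  have e : ∀ i j, ((a : F) • ((unip β * dia α : GL (Fin 2) F)).val) i j =
      ((unip β' * dia α' : GL (Fin 2) F)).val i j := fun i j => by
    rw [← scalarGlobal_mul_val, ha]
  have e11 := e 1 1
  have e00 := e 0 0
  have e01 := e 0 1
  simp [Matrix.mul_apply, Fin.sum_univ_two, dia_val] at e11 e00 e01
  rw [e11, Units.val_one, one_mul] at e00 e01
  exact Prod.ext (Units.ext e00) e01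

omit [NumberField F] in
/-- `diag(α, 1)` acts as an affine map. -/
theorem glEmb_dia (w : InfinitePlace F) (α : Fˣ) :
    glEmb F w (dia α) = H3.affine (w.embedding (α : F)) 0
      ((map_ne_zero w.embedding).mpr α.ne_zero) := by
  ext i j
  show w.embedding ((dia α : GL (Fin 2) F).val i j) = _
  rw [dia_val]
  fin_cases i <;> fin_cases j <;> simp [H3.affine]

omit [NumberField F] in
/-- An upper triangular element scales the heights by `‖α‖`. -/
theorem tc_glEmb_upperForm (w : InfinitePlace F) (α : Fˣ) (β : F) (Q : H3) :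
    H3.tc (glEmb F w (unip β * dia α) • Q) = w (α : F) * H3.tc Q := by
  rw [map_mul, mul_smul, glEmb_unip_smul, H3.tc_pt _ (H3.tc_pos _), glEmb_dia]
  conv_lhs => rw [← H3.pt_coord Q]
  have hne : w.embedding (α : F) ≠ 0 := (map_ne_zero w.embedding).mpr α.ne_zero
  rw [H3.affine_smul _ _ _ _ (H3.tc_pos Q),
    H3.tc_pt _ (mul_pos (norm_pos_iff.mpr hne) (H3.tc_pos Q)), InfinitePlace.norm_embedding_eq]

/-- The finitely many diagonal parts. -/
theorem exists_diag_parts (U : Level F) (r r' : GLFin F) (B : ℝ) :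
    ∃ S : Finset Fˣ, ∀ γ : GL (Fin 2) F,
      (QuotientGroup.mk (glIncl F γ * r) : GLFin F ⧸ U.toSubgroup) = QuotientGroup.mk r' →
      ∀ α : Fˣ, (α : F) = adjEntry γ ((0, 0), (0, 0)) → (∀ w : InfinitePlace F, w (α : F) ≤ B) →
        α ∈ S := by
  classical
  obtain ⟨M, hM, hden⟩ := exists_adjVec_den U r r'
  refine ⟨(((finite_boundedDen F hM B).preimage Units.val_injective.injOn)).toFinset,
    fun γ hγ α hα hB => ?_⟩
  rw [Set.Finite.mem_toFinset]
  exact ⟨hα ▸ hden γ hγ _, hB⟩

end Fermat.Agent.LT.Kernel
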