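import Fermat.Agent.LT.Kernel.Cusp
import Fermat.Agent.LT.Reduction.Finite

/-!
# The bound on cuspidal kernels over a Siegel set

`exists_bound_siegel`: `‖K(x, y)‖ ≤ C · height x ^ (2 - 1/r)` for `x` in a Siegel set and every `y`.
-/

set_option autoImplicit false

noncomputable section

open Matrix
open scoped NumberField
open NumberField (InfinitePlace)

namespace Fermat.Agent.LT.Kernel

variable {F : Type*} [Field F] [NumberField F] {U : Level F}

/-- A bound on the values of `h.kernel a`. -/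
def kerBound (h : HeckeFn U) (a : GLFin F ⧸ U.toSubgroup) : ℝ :=
  ∑ d ∈ (finite_kernel_support h a).toFinset, ‖h.kernel a d‖

theorem kerBound_nonneg (h : HeckeFn U) (a : GLFin F ⧸ U.toSubgroup) : 0 ≤ kerBound h a :=
  Finset.sum_nonneg fun _ _ => norm_nonneg _

theorem norm_kernel_le (h : HeckeFn U) (a d : GLFin F ⧸ U.toSubgroup) :
    ‖h.kernel a d‖ ≤ kerBound h a := by
  by_cases hd : h.kernel a d = 0
  · simp [hd, kerBound_nonneg]
  · exact Finset.single_le_sum (f := fun e => ‖h.kernel a e‖) (fun _ _ => norm_nonneg _)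
      ((Set.Finite.mem_toFinset _).mpr hd)

theorem norm_pairKer_le (k : PointKer F) (h : HeckeFn U) (x y : Y U) :
    ‖pairKer k h x y‖ ≤ k.bound * kerBound h x.2 := by
  rw [pairKer, norm_mul]
  exact mul_le_mul (k.norm_le _ _) (norm_kernel_le h _ _) (norm_nonneg _) k.bound_nonneg

theorem height_rpow_eq (x : Y U) :
    Reduction.height x ^ gainExp F = heightPow fun w => H3.tc (x.1 w) :=
  (Real.finsetProd_rpow _ _ (fun w _ => (H3.tc_pos (x.1 w)).le) _).symm

/-- The finite component of `γ • y` in terms of the representatives of the two cosets. -/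
theorem mk_glIncl_mul_out (γ : GL (Fin 2) F) (y : Y U) :
    (QuotientGroup.mk (glIncl F γ * y.2.out) : GLFin F ⧸ U.toSubgroup) =
      QuotientGroup.mk ((γ • y).2).out := by
  rw [QuotientGroup.out_eq', smul_snd]
  conv_rhs => rw [← QuotientGroup.out_eq' y.2]
  rfl

/-- At a nonzero term the coset lies in the support at `x` and the infinite components are
close. -/
theorem snd_mem_and_cdist_le (k : PointKer F) (h : HeckeFn U) {r : GLFin F} {x y : Y U}
    (hxr : x.2 = QuotientGroup.mk r) (hne : pairKer k h x y ≠ 0) :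
    y.2 ∈ (finite_kernel_support h (QuotientGroup.mk r : GLFin F ⧸ U.toSubgroup)).toFinset ∧
      ∀ w, H3.cdist (x.1 w) (y.1 w) ≤ k.radius := by
  obtain ⟨h1, h2⟩ := mul_ne_zero_iff.mp hne
  refine ⟨?_, k.cdist_le h1⟩
  rw [Set.Finite.mem_toFinset]
  exact hxr ▸ h2

/-- Over a bounded part of a Siegel set only finitely many elements give nonzero terms. -/
theorem exists_finite_terms (k : PointKer F) (h : HeckeFn U) (r : GLFin F) (A B : ℝ) {b : ℝ}
    (hb : 0 < b) (T : ℝ) :
    ∃ Γ₀ : Finset (PGLIndex F), ∀ x y : Y U, Reduction.SiegelCond A B b x.1 →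
      x.2 = QuotientGroup.mk r → pairKer k h x y ≠ 0 → (∀ w, H3.tc (y.1 w) ≤ T) →
        ∀ c ∉ Γ₀, pairKer k h x (c • y) = 0 := by
  classical
  set ρ := k.radius
  have hρ : 1 ≤ ρ := k.one_le_radius
  set b' := b / (2 * ρ) with hb'def
  have hb' : 0 < b' := by positivity
  set D := (finite_kernel_support h (QuotientGroup.mk r : GLFin F ⧸ U.toSubgroup)).toFinset
  set T₁ := 1 + |A| + 2 * ρ * (2 * ρ * |T|) + 2 * ρ * |T| + |T| + b'⁻¹ with hT₁def
  have h4 : (0 : ℝ) ≤ 2 * ρ * (2 * ρ * |T|) := by positivity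
  have h5 : (0 : ℝ) ≤ 2 * ρ * |T| := by positivity
  have h6 : (0 : ℝ) ≤ b'⁻¹ := by positivity
  have hT₁ : 1 ≤ T₁ := by linarith [abs_nonneg A, abs_nonneg T]
  choose Γ hΓfin hΓ using fun p : (GLFin F ⧸ U.toSubgroup) × (GLFin F ⧸ U.toSubgroup) =>
    exists_finite_indices U p.1.out p.2.out (T₁ ^ 2) ρ
  refine ⟨(D ×ˢ D).biUnion fun p => (hΓfin p).toFinset, fun x y hx hxr hxy hlow c hcΓ => ?_⟩
  obtain ⟨hyD, hd⟩ := snd_mem_and_cdist_le k h hxr hxy
  have hPQ := fun w => tc_le_of_cdist_le (hd w)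
  have hP1 : ∀ w, H3.tc (x.1 w) ≤ 2 * ρ * |T| := fun w =>
    (hPQ w).2.1.trans
      (mul_le_mul_of_nonneg_left ((hlow w).trans (le_abs_self T)) (by linarith))
  have hbi : 1 ≤ T₁ * b' := by
    rw [← inv_le_iff_one_le_mul₀ hb']
    linarith [abs_nonneg A, abs_nonneg T]
  have hbb : b' ≤ b := by
    rw [hb'def, div_le_iff₀ (by linarith)]
    nlinarith
  have hsP : ∀ w, SizeLE (T₁ ^ 2) (toGL (x.1 w)) := fun w =>
    sizeLE_toGL hT₁ (by linarith [hP1 w, abs_nonneg A, abs_nonneg T])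
      (hbi.trans (mul_le_mul_of_nonneg_left (hbb.trans (hx w).1) (zero_le_one.trans hT₁)))
      (by linarith [(hx w).2.1, le_abs_self A, abs_nonneg T])
  have hsQ : ∀ w, SizeLE (T₁ ^ 2) (toGL (y.1 w)) := fun w => by
    have hQb : b' ≤ H3.tc (y.1 w) := by
      rw [hb'def, div_le_iff₀ (by linarith)]
      linarith [(hx w).1, (hPQ w).2.1]
    refine sizeLE_toGL hT₁ (by linarith [hlow w, le_abs_self T, abs_nonneg A])
      (hbi.trans (mul_le_mul_of_nonneg_left hQb (zero_le_one.trans hT₁))) ?_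
    have h1 := norm_sub_norm_le (H3.zc (y.1 w)) (H3.zc (x.1 w))
    rw [norm_sub_rev] at h1
    have h2 : 2 * ρ * H3.tc (x.1 w) ≤ 2 * ρ * (2 * ρ * |T|) :=
      mul_le_mul_of_nonneg_left (hP1 w) (by linarith)
    linarith [(hPQ w).2.2, (hx w).2.1, le_abs_self A, abs_nonneg T]
  by_contra hne
  induction c using QuotientGroup.induction_on with | H γ => ?_
  obtain ⟨h1, h3⟩ := snd_mem_and_cdist_le k h hxr hne
  refine hcΓ (Finset.mem_biUnion.mpr ⟨(y.2, (γ • y).2), Finset.mem_product.mpr ⟨hyD, h1⟩,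
    (Set.Finite.mem_toFinset _).mpr (hΓ _ γ (fun w => toGL (x.1 w)) (fun w => toGL (y.1 w))
      hsP hsQ (fun w => ?_) (mk_glIncl_mul_out γ y))⟩)
  rw [toGL_smul_origin, toGL_smul_origin]
  exact h3 w

/-- High in the cusp every nonzero term comes from some `n(β) diag(α, 1)`, with `α` in a fixed
finite set. -/
theorem exists_upper_terms (k : PointKer F) (h : HeckeFn U) (r : GLFin F) {b : ℝ} (hb : 0 < b) :
    ∃ (T : ℝ) (S : Finset Fˣ), ∀ x y : Y U, (∀ w, b ≤ H3.tc (x.1 w)) →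
      x.2 = QuotientGroup.mk r → pairKer k h x y ≠ 0 → (∃ w, T < H3.tc (y.1 w)) →
        ∀ c : PGLIndex F, pairKer k h x (c • y) ≠ 0 →
          ∃ p : Fˣ × F, p.1 ∈ S ∧ QuotientGroup.mk (unip p.2 * dia p.1) = c := by
  classical
  set ρ := k.radius
  have hρ : 1 ≤ ρ := k.one_le_radius
  set b' := b / (2 * ρ) with hb'def
  have hb' : 0 < b' := by positivity
  set D := (finite_kernel_support h (QuotientGroup.mk r : GLFin F ⧸ U.toSubgroup)).toFinset
  choose Tf hTf0 hTf using fun p : (GLFin F ⧸ U.toSubgroup) × (GLFin F ⧸ U.toSubgroup) =>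
    exists_height_bound U p.1.out p.2.out hb'
  choose Sf hSf using fun p : (GLFin F ⧸ U.toSubgroup) × (GLFin F ⧸ U.toSubgroup) =>
    exists_diag_parts U p.1.out p.2.out (4 * ρ ^ 2)
  refine ⟨∑ p ∈ D ×ˢ D, Tf p, (D ×ˢ D).biUnion Sf, fun x y hx hxr hxy ⟨w₁, hw₁⟩ c hne => ?_⟩
  obtain ⟨hyD, hd⟩ := snd_mem_and_cdist_le k h hxr hxy
  have hPQ := fun w => tc_le_of_cdist_le (hd w)
  have hQb : ∀ w, b' ≤ H3.tc (y.1 w) := fun w => by
    rw [hb'def, div_le_iff₀ (by linarith)]
    linarith [hx w, (hPQ w).2.1]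
  induction c using QuotientGroup.induction_on with | H γ => ?_
  obtain ⟨h1, h3⟩ := snd_mem_and_cdist_le k h hxr hne
  have hz := fun w => tc_le_of_cdist_le (h3 w)
  have h10 : γ.val 1 0 = 0 := by
    by_contra h10
    have := hTf (y.2, (γ • y).2) γ (mk_glIncl_mul_out γ y) h10 y.1 hQb (fun w => by
      rw [hb'def, div_le_iff₀ (by linarith)]
      have : H3.tc (x.1 w) ≤ 2 * ρ * H3.tc (glEmb F w γ • y.1 w) := (hz w).2.1
      linarith [hx w]) w₁
    have h' : Tf (y.2, (γ • y).2) ≤ ∑ p ∈ D ×ˢ D, Tf p :=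
      Finset.single_le_sum (f := Tf) (fun p _ => hTf0 p) (Finset.mem_product.mpr ⟨hyD, h1⟩)
    linarith
  obtain ⟨α, β, hαβ, hα⟩ := exists_upper_form h10
  refine ⟨(α, β), Finset.mem_biUnion.mpr ⟨(y.2, (γ • y).2), Finset.mem_product.mpr ⟨hyD, h1⟩,
    hSf _ γ (mk_glIncl_mul_out γ y) α hα fun w => ?_⟩, hαβ.symm⟩
  have hsm : (unip β * dia α : GL (Fin 2) F) • y = γ • y := by
    rw [← pgl_mk_smul, ← hαβ, pgl_mk_smul]
  have hz2 : H3.tc ((γ • y).1 w) ≤ 2 * ρ * H3.tc (x.1 w) := (hz w).1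
  rw [← hsm, smul_fst, tc_glEmb_upperForm] at hz2
  have h4 : w (α : F) * H3.tc (y.1 w) ≤ 4 * ρ ^ 2 * H3.tc (y.1 w) := by
    have := mul_le_mul_of_nonneg_left (hPQ w).2.1 (by linarith : (0 : ℝ) ≤ 2 * ρ)
    linarith
  exact le_of_mul_le_mul_right h4 (H3.tc_pos _)

/-- The line lemma bounds a kernel all of whose nonzero terms are upper triangular with diagonal
part in a given finite set. -/
theorem exists_upper_bound (k : PointKer F) (h : HeckeFn U) (hc : HasCuspCondition h)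
    (r : GLFin F) (A B : ℝ) {b : ℝ} (hb : 0 < b) (S : Finset Fˣ) :
    ∃ C : ℝ, 0 ≤ C ∧ ∀ x y : Y U, Reduction.SiegelCond A B b x.1 → x.2 = QuotientGroup.mk r →
      pairKer k h x y ≠ 0 →
      (∀ c : PGLIndex F, pairKer k h x (c • y) ≠ 0 →
        ∃ p : Fˣ × F, p.1 ∈ S ∧ QuotientGroup.mk (unip p.2 * dia p.1) = c) →
        ‖autKer k h x y‖ ≤ C * Reduction.height x ^ gainExp F := by
  classical
  set D := (finite_kernel_support h (QuotientGroup.mk r : GLFin F ⧸ U.toSubgroup)).toFinset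
  choose Cl hCl0 hCl using fun q : Fˣ × (GLFin F ⧸ U.toSubgroup) =>
    exists_line_bound k h hc r (glIncl F (dia q.1) * q.2.out) (B := max B 0) hb (le_max_right _ _)
  refine ⟨∑ q ∈ S ×ˢ D, Cl q, Finset.sum_nonneg fun q _ => hCl0 q,
    fun x y hx hxr hxy hupper => ?_⟩
  have hyD := (snd_mem_and_cdist_le k h hxr hxy).1
  let g : Fˣ × F → PGLIndex F := fun p => QuotientGroup.mk (unip p.2 * dia p.1)
  have hsum : Summable fun p : Fˣ × F => pairKer k h x (g p • y) :=
    (hasSum_autKer k h x y).summable.comp_injective injective_upperForm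
  have hrange : (Function.support fun c : PGLIndex F => pairKer k h x (c • y)) ⊆ Set.range g :=
    fun c hcs => (hupper c hcs).elim fun p hp => ⟨p, hp.2⟩
  rw [autKer, ← injective_upperForm.tsum_eq hrange, hsum.tsum_prod,
    tsum_eq_sum (s := S) fun α hα => ?_]
  swap
  · refine (tsum_congr fun β => ?_).trans tsum_zero
    by_contra hne
    obtain ⟨p, hp, hpe⟩ := hupper _ hne
    have := injective_upperForm (a₁ := p) (a₂ := (α, β)) hpe
    subst this
    exact hα hp
  refine (norm_sum_le _ _).trans ?_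
  rw [height_rpow_eq]
  refine le_trans (Finset.sum_le_sum (g := fun α => Cl (α, y.2) * heightPow fun w =>
    H3.tc (x.1 w)) fun α _ => ?_) ?_
  · refine le_trans (le_of_eq (congrArg norm (tsum_congr fun β => ?_)))
      (hCl (α, y.2) x.1 (fun w => glEmb F w (dia α) • y.1 w) (fun w => (hx w).1) fun w w' =>
        ((hx w).2.2 w').trans (mul_le_mul_of_nonneg_right (le_max_left _ _) (H3.tc_pos _).le))
    simp only [g, pgl_mk_smul, pairKer]
    congr 1
    · congr 1
      funext w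
      rw [smul_fst, map_mul, mul_smul]
    · rw [hxr, smul_snd]
      conv_lhs => rw [← QuotientGroup.out_eq' y.2]
      rw [MulAction.Quotient.smul_mk, HeckeFn.kernel_mk, lineFn, map_mul, glIncl_unip,
        smul_eq_mul]
      congr 1
      group
  · rw [← Finset.sum_mul]
    refine mul_le_mul_of_nonneg_right ?_ (heightPow_nonneg fun w => (H3.tc_pos _).le)
    rw [Finset.sum_product]
    exact Finset.sum_le_sum fun α _ =>
      Finset.single_le_sum (f := fun d => Cl (α, d)) (fun d _ => hCl0 _) hyD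

/-- The bound over the points of a Siegel set with a given finite coset. -/
theorem exists_bound_at (k : PointKer F) (h : HeckeFn U) (hc : HasCuspCondition h) (r : GLFin F)
    (A B : ℝ) {b : ℝ} (hb : 0 < b) :
    ∃ C : ℝ, 0 ≤ C ∧ ∀ x : Y U, Reduction.SiegelCond A B b x.1 → x.2 = QuotientGroup.mk r →
      ∀ y, ‖autKer k h x y‖ ≤ C * Reduction.height x ^ gainExp F := by
  classical
  obtain ⟨T, S, hupper⟩ := exists_upper_terms k h r hb
  obtain ⟨Γ₀, hΓ₀⟩ := exists_finite_terms k h r A B hb T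
  obtain ⟨C₂, hC₂, hline⟩ := exists_upper_bound k h hc r A B hb S
  set M₀ := k.bound * kerBound h (QuotientGroup.mk r : GLFin F ⧸ U.toSubgroup)
  have hM₀ : 0 ≤ M₀ := mul_nonneg k.bound_nonneg (kerBound_nonneg _ _)
  have hpos : 0 < (∏ _w : InfinitePlace F, b) ^ gainExp F :=
    Real.rpow_pos_of_pos (Finset.prod_pos fun _ _ => hb) _
  set C₁ := ((∏ _w : InfinitePlace F, b) ^ gainExp F)⁻¹ * (Γ₀.card * M₀)
  have hC₁ : 0 ≤ C₁ := mul_nonneg (inv_nonneg.mpr hpos.le) (by positivity)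
  refine ⟨C₁ + C₂, add_nonneg hC₁ hC₂, fun x hx hxr y₀ => ?_⟩
  have hH := Real.rpow_nonneg (Reduction.height_pos x).le (gainExp F)
  by_cases hall : ∀ c : PGLIndex F, pairKer k h x (c • y₀) = 0
  · simp only [autKer, hall, tsum_zero, norm_zero]
    positivity
  push Not at hall
  obtain ⟨c₀, hc₀⟩ := hall
  rw [← autKer_pgl_smul_right k h c₀ x y₀, add_mul]
  by_cases hlow : ∀ w, H3.tc ((c₀ • y₀).1 w) ≤ T
  · -- finitely many terms, and the height is bounded below
    refine le_add_of_le_of_nonneg ?_ (mul_nonneg hC₂ hH)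
    rw [autKer, tsum_eq_sum (hΓ₀ x _ hx hxr hc₀ hlow)]
    refine (norm_sum_le _ _).trans ((Finset.sum_le_sum fun c _ => norm_pairKer_le k h x _).trans ?_)
    rw [Finset.sum_const, nsmul_eq_mul, hxr]
    have hge : (∏ _w : InfinitePlace F, b) ^ gainExp F ≤ Reduction.height x ^ gainExp F :=
      Real.rpow_le_rpow (Finset.prod_nonneg fun _ _ => hb.le)
        (Finset.prod_le_prod (fun _ _ => hb.le) fun w _ => (hx w).1)
        (zero_le_one.trans (one_le_gainExp F))
    calc (Γ₀.card : ℝ) * M₀ = C₁ * (∏ _w : InfinitePlace F, b) ^ gainExp F := by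
          simp only [C₁]; field_simp
      _ ≤ C₁ * Reduction.height x ^ gainExp F := mul_le_mul_of_nonneg_left hge hC₁
  · -- only upper triangular terms
    push Not at hlow
    exact le_add_of_nonneg_of_le (mul_nonneg hC₁ hH)
      (hline x _ hx hxr hc₀ (hupper x _ (fun w => (hx w).1) hxr hc₀ hlow))

/-- Cuspidal kernels are bounded by `height x ^ (2 - 1/r)` on Siegel sets. -/
theorem exists_bound_siegel (k : PointKer F) (h : HeckeFn U) (hc : HasCuspCondition h)
    (R : Finset (GLFin F)) (A B : ℝ) {b : ℝ} (hb : 0 < b) :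
    ∃ C : ℝ, 0 ≤ C ∧ ∀ x ∈ Reduction.siegel U R A B b, ∀ y,
      ‖autKer k h x y‖ ≤ C * Reduction.height x ^ gainExp F := by
  choose C hC0 hC using fun r => exists_bound_at k h hc r A B hb
  refine ⟨∑ r ∈ R, C r, Finset.sum_nonneg fun r _ => hC0 r, fun x hx y => ?_⟩
  obtain ⟨hx1, r, hr, hxr⟩ := hx
  exact (hC r x hx1 hxr y).trans (mul_le_mul_of_nonneg_right
    (Finset.single_le_sum (fun r _ => hC0 r) hr) (Real.rpow_nonneg (Reduction.height_pos x).le _))

end Fermat.Agent.LT.Kernel
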