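import Fermat.Agent.LT.Kernel.Periodic
import Fermat.Agent.LT.HeckeAlg.Basic

/-!
# The cusp condition is stable under products on both sides

The cusp condition holds along every fine enough grid (`HasCuspCondition.exists_grid`), so a
product with a cuspidal factor on either side is cuspidal.
-/

set_option autoImplicit false

noncomputable section

open Matrix
open scoped NumberField

namespace Fermat.Agent.LT.Kernel

variable {F : Type*} [Field F] [NumberField F] {U : Level F}

/-- A lattice of unipotents fixing a finite coset. -/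
theorem exists_fixing_lattice (a : GLFin F ⧸ U.toSubgroup) :
    ∃ N : ℕ, 0 < N ∧ ∀ z ∈ integralAdele F,
      (unip ((N : FinAdele F) * z) : GLFin F) • a = a := by
  induction a using QuotientGroup.induction_on with | H r => ?_
  obtain ⟨N, hN, hU⟩ := U.exists_principal
  obtain ⟨M, hM, hMi⟩ := Reduction.exists_denominator (fun p : Bool × Fin 2 × Fin 2 =>
    if p.1 then r.val p.2.1 p.2.2 else (r⁻¹).val p.2.1 p.2.2)
  refine ⟨M * M * N, by positivity, fun z hz => ?_⟩
  show (QuotientGroup.mk (unip _ * r) : GLFin F ⧸ U.toSubgroup) = QuotientGroup.mk r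
  refine ((QuotientGroup.eq).mpr ?_).symm
  rw [← mul_assoc]
  refine hU _ fun i j => ?_
  set e := z * (((M : FinAdele F) * (r⁻¹).val i 0) * ((M : FinAdele F) * r.val 1 j))
  have he : e ∈ integralAdele F :=
    mul_mem hz (mul_mem (by simpa using hMi (false, i, 0)) (by simpa using hMi (true, 1, j)))
  refine ⟨e, he, -e, neg_mem he, ?_, ?_⟩
  · rw [conj_unip_val]; simp only [e]; push_cast; ring
  · rw [show (r⁻¹ * unip (((M * M * N : ℕ) : FinAdele F) * z) * r)⁻¹ =
        r⁻¹ * unip (-(((M * M * N : ℕ) : FinAdele F) * z)) * r by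
      rw [_root_.mul_inv_rev, _root_.mul_inv_rev, inv_inv, ← AddChar.map_neg_eq_inv, ← mul_assoc],
      conj_unip_val]
    simp only [e]; push_cast; ring

theorem kernel_unip_periodic (h : HeckeFn U) {a : GLFin F ⧸ U.toSubgroup} {N : ℕ}
    (hN : ∀ z ∈ integralAdele F, (unip ((N : FinAdele F) * z) : GLFin F) • a = a)
    (c : GLFin F ⧸ U.toSubgroup) (u : FinAdele F) {z : FinAdele F} (hz : z ∈ integralAdele F) :
    h.kernel a ((unip (u + (N : FinAdele F) * z) : GLFin F) • c) =
      h.kernel a ((unip u : GLFin F) • c) := by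
  conv_lhs => rw [← hN z hz, add_comm, unip_add, mul_smul, HeckeFn.kernel_smul]

theorem finIncl_injective : Function.Injective (finIncl F) := fun x y hxy => by
  refine (NumberField.integralBasis F).repr.injective (Finsupp.ext fun i => ?_)
  have h := congrArg (Reduction.coordAt i ⟨2, Nat.prime_two⟩) hxy
  rw [Reduction.finIncl_apply, Reduction.finIncl_apply] at h
  have h' := ((Reduction.coordAt_tmul i _ x 1).symm.trans h).trans (Reduction.coordAt_tmul i _ y 1)
  simpa [show ((1 : Zhat) ⟨2, Nat.prime_two⟩) = 1 from rfl] using h'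

/-- The representatives of `L⁻¹ 𝓞` modulo `N`. -/
def gridPt (L N : ℕ) (q : 𝓞 F ⧸ Ideal.span {((L * N : ℕ) : 𝓞 F)}) : FinAdele F :=
  finIncl F ((Function.surjInv Ideal.Quotient.mk_surjective q : 𝓞 F) / (L : F))

theorem gridPt_injective {L : ℕ} (hL : 0 < L) (N : ℕ) :
    Function.Injective (gridPt (F := F) L N) := by
  intro p q h
  have h1 := finIncl_injective h
  rw [div_left_inj' (Nat.cast_ne_zero.mpr hL.ne')] at h1
  exact (Function.injective_surjInv Ideal.Quotient.mk_surjective)
    (NumberField.RingOfIntegers.coe_injective h1)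

theorem finite_grid {L N : ℕ} (hL : 0 < L) (hN : 0 < N) :
    Finite (𝓞 F ⧸ Ideal.span {((L * N : ℕ) : 𝓞 F)}) :=
  Ring.HasFiniteQuotients.finiteQuotient fun hb =>
    Nat.cast_ne_zero.mpr (Nat.mul_pos hL hN).ne' (Ideal.span_singleton_eq_bot.mp hb)

/-- A periodic function has translation invariant sums over the grid. -/
theorem sum_grid_shift {L N : ℕ} (hL : 0 < L) (hN : 0 < N)
    [Fintype (𝓞 F ⧸ Ideal.span {((L * N : ℕ) : 𝓞 F)})] (ψ : FinAdele F → ℂ)
    (hper : ∀ u, ∀ z ∈ integralAdele F, ψ (u + (N : FinAdele F) * z) = ψ u) {s : FinAdele F}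
    (hs : (L : FinAdele F) * s ∈ integralAdele F) :
    ∑ q, ψ (s + gridPt L N q) = ∑ q, ψ (gridPt L N q) := by
  obtain ⟨o, y, hy, hoy⟩ := Reduction.exists_integer_add (L * N) (Nat.mul_pos hL hN) hs
  have hLF : (L : F) ≠ 0 := Nat.cast_ne_zero.mpr hL.ne'
  refine Eq.trans (Finset.sum_congr rfl fun q _ => ?_)
    (Equiv.sum_comp (Equiv.addLeft (Ideal.Quotient.mk (Ideal.span {((L * N : ℕ) : 𝓞 F)}) o))
      fun q => ψ (gridPt L N q))
  set r := Function.surjInv (f := Ideal.Quotient.mk (Ideal.span {((L * N : ℕ) : 𝓞 F)}))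
    Ideal.Quotient.mk_surjective with hr
  have hrq : ∀ p, Ideal.Quotient.mk (Ideal.span {((L * N : ℕ) : 𝓞 F)}) (r p) = p :=
    Function.surjInv_eq Ideal.Quotient.mk_surjective
  have h1 : Ideal.Quotient.mk (Ideal.span {((L * N : ℕ) : 𝓞 F)}) (o + r q) =
      Ideal.Quotient.mk (Ideal.span {((L * N : ℕ) : 𝓞 F)})
        (r (Ideal.Quotient.mk (Ideal.span {((L * N : ℕ) : 𝓞 F)}) o + q)) := by
    rw [map_add, hrq, hrq]
  obtain ⟨d, hd⟩ := Ideal.mem_span_singleton'.mp (Ideal.Quotient.eq.mp h1)
  have hu : IsUnit (L : FinAdele F) := by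
    rw [← map_natCast (finIncl F)]
    exact (isUnit_iff_ne_zero.mpr hLF).map _
  have e : ∀ x : F, (L : FinAdele F) * finIncl F (x / L) = finIncl F x := fun x => by
    rw [← map_natCast (finIncl F), ← map_mul, mul_div_cancel₀ _ hLF]
  have h2 : s + gridPt L N q =
      gridPt L N (Ideal.Quotient.mk (Ideal.span {((L * N : ℕ) : 𝓞 F)}) o + q) +
      (N : FinAdele F) * (finIncl F (d : F) + y) := by
    refine hu.mul_left_cancel ?_
    rw [gridPt, gridPt, mul_add, mul_add, e, e, hoy]
    have hd' : (d : F) * ((L : F) * (N : F)) =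
        (o : F) + (r q : F) -
          (r (Ideal.Quotient.mk (Ideal.span {((L * N : ℕ) : 𝓞 F)}) o + q) : F) := by
      have := congrArg (algebraMap (𝓞 F) F) hd
      simpa using this
    have hd'' := congrArg (finIncl F) hd'
    simp only [map_mul, map_sub, map_add, map_natCast] at hd''
    push_cast
    rw [← hr]
    linear_combination -hd''
  rw [h2, hper _ _ (add_mem (Reduction.finIncl_mem_of_isIntegral d) hy)]
  rfl

open Classical in
/-- Uniform form of the cusp condition: the sum over every fine enough grid vanishes. -/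
theorem HasCuspCondition.exists_grid {h : HeckeFn U} (hc : HasCuspCondition h)
    (a : GLFin F ⧸ U.toSubgroup) :
    ∃ L N : ℕ, 0 < L ∧ 0 < N ∧ ∀ L' N' : ℕ, L ∣ L' → N ∣ N' → 0 < L' → 0 < N' →
      ∀ (_ : Fintype (𝓞 F ⧸ Ideal.span {((L' * N' : ℕ) : 𝓞 F)})) (c : GLFin F ⧸ U.toSubgroup),
        ∑ q, h.kernel a ((unip (gridPt L' N' q) : GLFin F) • c) = 0 := by
  induction a using QuotientGroup.induction_on with | H r => ?_
  obtain ⟨S, hS, hsum⟩ := hc r
  obtain ⟨L, hL, hSden⟩ := Reduction.exists_denominator (fun s : S => (s : FinAdele F))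
  obtain ⟨N, hN, hfix⟩ := exists_fixing_lattice (U := U) (QuotientGroup.mk r)
  refine ⟨L, N, hL, hN, fun L' N' hLL hNN hL' hN' _ c => ?_⟩
  induction c using QuotientGroup.induction_on with | H m => ?_
  set ψ : FinAdele F → ℂ := fun u =>
    h.kernel (QuotientGroup.mk r) ((unip u : GLFin F) • QuotientGroup.mk m) with hψ
  have hper : ∀ u, ∀ z ∈ integralAdele F, ψ (u + (N' : FinAdele F) * z) = ψ u := by
    intro u z hz
    obtain ⟨e, rfl⟩ := hNN
    rw [Nat.cast_mul, mul_assoc]
    exact kernel_unip_periodic h hfix _ u (mul_mem (natCast_mem _ _) hz)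
  have hden : ∀ s ∈ S, (L' : FinAdele F) * s ∈ integralAdele F := fun s hs => by
    obtain ⟨e, rfl⟩ := hLL
    rw [Nat.cast_mul, mul_comm (L : FinAdele F), mul_assoc]
    exact mul_mem (natCast_mem _ _) (hSden ⟨s, hs⟩)
  have h0 : (S.card : ℂ) * ∑ q, ψ (gridPt L' N' q) = 0 := by
    rw [← nsmul_eq_mul, ← Finset.sum_const,
      ← Finset.sum_congr rfl fun s hs => sum_grid_shift hL' hN' ψ hper (hden s hs),
      Finset.sum_comm]
    refine Finset.sum_eq_zero fun q _ => ?_
    refine (Finset.sum_congr rfl fun s _ => ?_).trans (hsum (unip (gridPt L' N' q) * m))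
    rw [hψ]
    simp only [MulAction.Quotient.smul_mk, HeckeFn.kernel_mk, smul_eq_mul, unip_add, mul_assoc]
  exact (mul_eq_zero.mp h0).resolve_left (Nat.cast_ne_zero.mpr hS.card_ne_zero)

/-- A cuspidal function times any function is cuspidal. -/
theorem HasCuspCondition.mul_right {f : HeckeFn U} (hf : HasCuspCondition f) (g : HeckeFn U) :
    HasCuspCondition (f * g) := by
  classical
  intro r
  obtain ⟨S, hS, hsum⟩ := hf r
  refine ⟨S, hS, fun c => ?_⟩
  have e : ∀ s : FinAdele F, (f * g).toFun (r⁻¹ * unip s * c) =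
      (f * g).kernel (QuotientGroup.mk r) ((unip s : GLFin F) • QuotientGroup.mk c) := fun s => by
    rw [MulAction.Quotient.smul_mk, smul_eq_mul, HeckeFn.kernel_mk, mul_assoc]
  simp only [e, HeckeFn.kernel_mul]
  -- the row of `f` at `r` pulled back along each translation
  set t := S.biUnion fun s => (f.row (QuotientGroup.mk r)).image
    fun b => ((unip s : GLFin F))⁻¹ • b with ht
  have hterm : ∀ s ∈ S, f.act
      (fun b => g.kernel b ((unip s : GLFin F) • (QuotientGroup.mk c))) (QuotientGroup.mk r) =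
      ∑ b ∈ t, f.kernel (QuotientGroup.mk r) ((unip s : GLFin F) • b) *
        g.kernel b (QuotientGroup.mk c) := by
    intro s hs
    have hsub : f.row (QuotientGroup.mk r) ⊆ t.image fun b => (unip s : GLFin F) • b :=
      fun b hb => Finset.mem_image.mpr ⟨((unip s : GLFin F))⁻¹ • b,
        Finset.mem_biUnion.mpr ⟨s, hs, Finset.mem_image_of_mem _ hb⟩, smul_inv_smul _ b⟩
    rw [f.act_eq_sum_of_subset _ hsub, Finset.sum_image fun x _ y _ hxy =>
      MulAction.injective _ hxy]
    refine Finset.sum_congr rfl fun b _ => ?_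
    rw [HeckeFn.kernel_smul]
  rw [Finset.sum_congr rfl hterm, Finset.sum_comm]
  refine Finset.sum_eq_zero fun b _ => ?_
  rw [← Finset.sum_mul]
  induction b using QuotientGroup.induction_on with | H m => ?_
  rw [show ∑ s ∈ S,
      f.kernel (QuotientGroup.mk r) ((unip s : GLFin F) • (QuotientGroup.mk m)) = 0 from
    (Finset.sum_congr rfl fun s _ => by
      rw [MulAction.Quotient.smul_mk, smul_eq_mul, HeckeFn.kernel_mk, ← mul_assoc]).trans (hsum m),
    zero_mul]

/-- Any function times a cuspidal function is cuspidal. -/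
theorem HasCuspCondition.mul_left {g : HeckeFn U} (hg : HasCuspCondition g) (f : HeckeFn U) :
    HasCuspCondition (f * g) := by
  classical
  intro r
  choose Lf Nf hL hN hgrid using fun b => hg.exists_grid (U := U) b
  set D := f.row (QuotientGroup.mk r)
  set L := ∏ b ∈ D, Lf b
  set N := ∏ b ∈ D, Nf b
  have hL0 : 0 < L := Finset.prod_pos fun b _ => hL b
  have hN0 : 0 < N := Finset.prod_pos fun b _ => hN b
  have := finite_grid (F := F) hL0 hN0
  have := Fintype.ofFinite (𝓞 F ⧸ Ideal.span {((L * N : ℕ) : 𝓞 F)})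
  refine ⟨Finset.univ.image (gridPt L N), Finset.univ_nonempty.image _, fun c => ?_⟩
  rw [Finset.sum_image fun x _ y _ hxy => gridPt_injective hL0 N hxy]
  have e : ∀ q, (f * g).toFun (r⁻¹ * unip (gridPt L N q) * c) =
      ∑ b ∈ D, f.kernel (QuotientGroup.mk r) b *
        g.kernel b ((unip (gridPt L N q) : GLFin F) • QuotientGroup.mk c) := fun q => by
    rw [← HeckeFn.act_eq_sum, ← HeckeFn.kernel_mul, MulAction.Quotient.smul_mk, smul_eq_mul,
      HeckeFn.kernel_mk, mul_assoc]
  simp only [e]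
  rw [Finset.sum_comm]
  refine Finset.sum_eq_zero fun b hb => ?_
  rw [← Finset.mul_sum, hgrid b L N (Finset.dvd_prod_of_mem _ hb) (Finset.dvd_prod_of_mem _ hb)
    hL0 hN0 _ _, mul_zero]

end Fermat.Agent.LT.Kernel
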